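import Mathlib
import Fermat.Agent.LT.T7.H621.ConjSpec

/-!
# Row LT, tower T7, sub-leaf T7.02.6 `ConjHeckeC621` (helper584)

OFF-MAIN.  Spec in bytes: `Fermat/Agent/LT/T7/H621/ConjSpec.lean` (helper621@c8d835172, sha256
`f89c8a92…`), on `LT/T7/Spec.lean` (sha `41dbc37a…`), `LT/T1/H930/AdeleAut.lean` (sha
`e220a21f…`), `LT/H556/A0.lean` (sha `66d3374a…`), all byte-identical.

`conjHeckeC584 : ConjHeckeC621 K` for every number field `K`: the Hecke eigen-property of `φ` at
`s⁻¹ v' = finPull930 s v'` gives the one of `φ ∘ s⁻¹ = conjFn621 s φ` at `v'`, with the same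
eigenvalues.  Proof = transport of structure along `c = conjG621 s.symm`:

* the component of `c g` at the finite place `w` is the image of the component of `g` at
  `finPull930 s.symm w` under the valuation preserving isomorphism `finMapEquiv930 s.symm w`
  (`finComp_conj584`), similarly at the infinite places;
* so `c` maps a Hecke coset system at `v'` to a Hecke coset system at `finPull930 s v'`
  (`isHeckeCosetSystem_image584`; `N(s⁻¹ v') = N(v')`: `absNorm_finPull584`) and a scalar
  uniformiser at `v'` to a scalar uniformiser at `finPull930 s v'`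
  (`isScalarUniformizerAt_conj584`).
-/

set_option autoImplicit false

open IsDedekindDomain NumberField AutomorphicForm
open scoped MatrixGroups

noncomputable section

namespace Fermat.Agent.LT.T7.H584

open Fermat.Agent.LT.H556 Fermat.Agent.LT.H556.A0 Fermat.Agent.LT.T1.H930
open Fermat.Agent.LT.T7.H621

variable {K : Type} [Field K] [NumberField K]

/-! ## Places -/

omit [NumberField K] in
/-- `s (s⁻¹ w) = w` on finite places. -/
theorem finPull_symm_finPull584 (s : K ≃+* K) (w : HeightOneSpectrum (𝓞 K)) :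
    finPull930 s.symm (finPull930 s w) = w :=
  (HeightOneSpectrum.equivOfRingEquiv (RingOfIntegers.mapRingEquiv s.symm)).symm_apply_apply w

omit [NumberField K] in
/-- `s⁻¹ (s w) = w` on finite places. -/
theorem finPull_finPull_symm584 (s : K ≃+* K) (w : HeightOneSpectrum (𝓞 K)) :
    finPull930 s (finPull930 s.symm w) = w :=
  (HeightOneSpectrum.equivOfRingEquiv (RingOfIntegers.mapRingEquiv s)).symm_apply_apply w


/-- `N(s⁻¹ w) = N(w)`. -/
theorem absNorm_finPull584 (s : K ≃+* K) (w : HeightOneSpectrum (𝓞 K)) :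
    Ideal.absNorm (finPull930 s w).asIdeal = Ideal.absNorm w.asIdeal := by
  have hmap : w.asIdeal
      = (finPull930 s w).asIdeal.map ((RingOfIntegers.mapRingEquiv s : 𝓞 K ≃+* 𝓞 K) : 𝓞 K →+* 𝓞 K) := by
    show w.asIdeal = (w.asIdeal.comap ((RingOfIntegers.mapRingEquiv s : 𝓞 K ≃+* 𝓞 K) : 𝓞 K →+* 𝓞 K)).map _
    exact (Ideal.map_comap_of_surjective _ (RingOfIntegers.mapRingEquiv s).surjective _).symm
  rw [Ideal.absNorm_apply, Ideal.absNorm_apply, Submodule.cardQuot_apply, Submodule.cardQuot_apply]
  exact Nat.card_congr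
    (Ideal.quotientEquiv (finPull930 s w).asIdeal w.asIdeal (RingOfIntegers.mapRingEquiv s) hmap).toEquiv

/-! ## Components of `conjG621 s g` -/

/-- The finite component of `s(g)` at `w` is the image of the component of `g` at `s⁻¹ w`. -/
theorem finComp_conj584 (s : K ≃+* K) (g : G K) (w : HeightOneSpectrum (𝓞 K)) (i j : Fin 2) :
    finComp w (conjG621 s g) i j = finMapEquiv930 s w (finComp (finPull930 s w) g i j) :=
  rfl

/-- The infinite component of `s(g)` at `w` is the image of the component of `g` at `w ∘ s`. -/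
theorem infEntry_conj584 (s : K ≃+* K) (g : G K) (w : InfinitePlace K) (i j : Fin 2) :
    ((conjG621 s g : Matrix (Fin 2) (Fin 2) (Adl K)) i j).1 w
      = infMapHom930 s w (((g : Matrix (Fin 2) (Fin 2) (Adl K)) i j).1 (infPull930 s w)) :=
  rfl

/-- Matrix form of `finComp_conj584`. -/
theorem finComp_conj_eq_map584 (s : K ≃+* K) (g : G K) (w : HeightOneSpectrum (𝓞 K)) :
    finComp w (conjG621 s g)
      = (finComp (finPull930 s w) g).map (finMapEquiv930 s w : _ →+* _) := by
  ext i j
  rfl

theorem trivAtInf_conj584 (s : K ≃+* K) (g : G K) (w : InfinitePlace K)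
    (h : TrivAtInf (infPull930 s w) g) : TrivAtInf w (conjG621 s g) := by
  intro i j
  rw [infEntry_conj584, h i j]
  by_cases hij : i = j
  · subst hij
    simp
  · simp [Matrix.one_apply_ne hij]

theorem trivAtFin_conj584 (s : K ≃+* K) (g : G K) (w : HeightOneSpectrum (𝓞 K))
    (h : TrivAtFin (finPull930 s w) g) : TrivAtFin w (conjG621 s g) := by
  unfold TrivAtFin at h ⊢
  rw [finComp_conj_eq_map584, h]
  ext i j
  by_cases hij : i = j
  · subst hij
    simp
  · simp [Matrix.one_apply_ne hij]

theorem isIntegralAt_conj584 (s : K ≃+* K) (g : G K) (w : HeightOneSpectrum (𝓞 K)) :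
    IsIntegralAt w (conjG621 s g) ↔ IsIntegralAt (finPull930 s w) g := by
  constructor
  · intro h i j
    exact (finMapEquiv930_mem_integers s w _).1 (h i j)
  · intro h i j
    exact (finMapEquiv930_mem_integers s w _).2 (h i j)

theorem valued_det_conj584 (s : K ≃+* K) (g : G K) (w : HeightOneSpectrum (𝓞 K)) :
    Valued.v (finComp w (conjG621 s g)).det = Valued.v (finComp (finPull930 s w) g).det := by
  have h := RingHom.map_det
    ((finMapEquiv930 s w :
        (finPull930 s w).adicCompletion K ≃+* w.adicCompletion K) :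
      (finPull930 s w).adicCompletion K →+* w.adicCompletion K)
    (finComp (finPull930 s w) g)
  rw [RingHom.mapMatrix_apply] at h
  rw [finComp_conj_eq_map584, ← h]
  exact valued_finMapEquiv930 s w _

/-! ## Transport to the place `s⁻¹ v' = finPull930 s v'` along `c = conjG621 s.symm` -/

theorem conjG_symm_injective584 (s : K ≃+* K) : Function.Injective (conjG621 (K := K) s.symm) :=
  Function.LeftInverse.injective (g := conjG621 s) (conjG621_conjG621_symm s)

theorem isIntegralAt_conj_symm584 (s : K ≃+* K) (g : G K) (v' : HeightOneSpectrum (𝓞 K)) :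
    IsIntegralAt (finPull930 s v') (conjG621 s.symm g) ↔ IsIntegralAt v' g := by
  rw [isIntegralAt_conj584, finPull_symm_finPull584]

theorem valued_det_conj_symm584 (s : K ≃+* K) (g : G K) (v' : HeightOneSpectrum (𝓞 K)) :
    Valued.v (finComp (finPull930 s v') (conjG621 s.symm g)).det
      = Valued.v (finComp v' g).det := by
  rw [valued_det_conj584, finPull_symm_finPull584]

theorem isLocalAtFin_conj_symm584 (s : K ≃+* K) (g : G K) (v' : HeightOneSpectrum (𝓞 K))
    (h : IsLocalAtFin v' g) : IsLocalAtFin (finPull930 s v') (conjG621 s.symm g) := by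
  refine ⟨fun w => trivAtInf_conj584 s.symm g w (h.1 _), fun w hw => ?_⟩
  refine trivAtFin_conj584 s.symm g w (h.2 _ ?_)
  intro hEq
  apply hw
  rw [← hEq, finPull_finPull_symm584]

open Classical in
/-- A Hecke coset system at `v'` goes to a Hecke coset system at `s⁻¹ v'`. -/
theorem isHeckeCosetSystem_image584 (s : K ≃+* K) (v' : HeightOneSpectrum (𝓞 K))
    (H : Finset (G K)) (hH : IsHeckeCosetSystem v' H) :
    IsHeckeCosetSystem (finPull930 s v') (H.image (conjG621 s.symm)) := by
  obtain ⟨hcard, hmem, hpair⟩ := hH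
  refine ⟨?_, ?_, ?_⟩
  · rw [Finset.card_image_of_injective H (conjG_symm_injective584 s), hcard,
      absNorm_finPull584]
  · intro h' hh'
    obtain ⟨h, hh, rfl⟩ := Finset.mem_image.1 hh'
    obtain ⟨h1, h2, h3⟩ := hmem h hh
    refine ⟨isLocalAtFin_conj_symm584 s h v' h1, (isIntegralAt_conj_symm584 s h v').2 h2, ?_⟩
    rw [valued_det_conj_symm584]
    exact h3
  · intro h₁' hh₁' h₂' hh₂' hne hint
    obtain ⟨h₁, hh₁, rfl⟩ := Finset.mem_image.1 hh₁'
    obtain ⟨h₂, hh₂, rfl⟩ := Finset.mem_image.1 hh₂'
    have hne' : h₁ ≠ h₂ := fun h => hne (by rw [h])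
    apply hpair h₁ hh₁ h₂ hh₂ hne'
    rw [← map_inv, ← map_mul] at hint
    exact (isIntegralAt_conj_symm584 s _ v').1 hint

/-- A scalar uniformiser at `v'` goes to a scalar uniformiser at `s⁻¹ v'`. -/
theorem isScalarUniformizerAt_conj584 (s : K ≃+* K) (v' : HeightOneSpectrum (𝓞 K)) (z : G K)
    (hz : IsScalarUniformizerAt v' z) :
    IsScalarUniformizerAt (finPull930 s v') (conjG621 s.symm z) := by
  obtain ⟨hloc, c, hc, hdiag⟩ := hz
  refine ⟨isLocalAtFin_conj_symm584 s z v' hloc, ?_⟩
  -- transport the diagonal form of `z` at `v'` to the (propositionally equal) place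
  -- `finPull930 s.symm (finPull930 s v')`
  have key : ∀ u : HeightOneSpectrum (𝓞 K), u = v' →
      ∃ c₁ : u.adicCompletion K, Valued.v c₁ = WithZero.exp (-1 : ℤ) ∧
        finComp u z = Matrix.diagonal (fun _ => c₁) := by
    rintro u rfl
    exact ⟨c, hc, hdiag⟩
  obtain ⟨c₁, hc₁, hdiag₁⟩ :=
    key (finPull930 s.symm (finPull930 s v')) (finPull_symm_finPull584 s v')
  refine ⟨finMapEquiv930 s.symm (finPull930 s v') c₁, ?_, ?_⟩
  · rw [valued_finMapEquiv930]
    exact hc₁
  · rw [finComp_conj_eq_map584, hdiag₁]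
    ext i j
    by_cases hij : i = j
    · subst hij
      simp
    · simp [Matrix.diagonal_apply_ne _ hij]

/-! ## The leaf -/

open Classical in
/-- **T7.02.6 `ConjHeckeC621`.** -/
theorem conjHeckeC584 (K : Type) [Field K] [NumberField K] : ConjHeckeC621 K := by
  intro s φ v' a b hφ
  obtain ⟨hT, hS⟩ := hφ
  refine ⟨fun H hH g => ?_, fun z hz g => ?_⟩
  · have h1 := hT (H.image (conjG621 s.symm)) (isHeckeCosetSystem_image584 s v' H hH)
      (conjG621 s.symm g)
    rw [Finset.sum_image (fun x _ y _ hxy => conjG_symm_injective584 s hxy),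
      absNorm_finPull584] at h1
    rw [conjFn621_apply, ← h1]
    refine Finset.sum_congr rfl fun h _ => ?_
    rw [conjFn621_apply, map_mul]
  · have h1 := hS (conjG621 s.symm z) (isScalarUniformizerAt_conj584 s v' z hz)
      (conjG621 s.symm g)
    rw [conjFn621_apply, conjFn621_apply, map_mul]
    exact h1

end Fermat.Agent.LT.T7.H584

end
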