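import Mathlib

/-!
# Row LT, tower T7, geometric half of the comparison (helper584): the UNFOLDING lemma, abstract form

OFF-MAIN.  Mathlib only.

`G` a measurable group with a left invariant `σ`-finite measure `μ`; `j : T →* G` a measurable
homomorphism from a measurable group with a right invariant `σ`-finite measure `μT`; `Γ ≤ T` a
countable subgroup; `F ⊆ G` a strict measurable fundamental domain for `Γ` acting on `G` on the
left (through `j`); `D ⊆ T` a strict measurable fundamental domain for `Γ` acting on `T` on the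
right; `β ≥ 0` a CUT-OFF function: `∫_T β(j(t) x) dμT(t) = 1` for every `x`.  Then for every
measurable `Φ` with `Φ(j(t) x) = Φ(x)`:

    ∫_F Φ dμ  =  μT(D) · ∫_G Φ β dμ.

(`∫_{Γ \ G} Φ = vol(Γ \ T) ∫_{T \ G} Φ`, without quotient measures: the right side is the
integral over `T \ G` in the normalisation of `T6.OrbSumIntC`.)

* `lintegral_unfold_cut584` : the statement for `Φ ≥ 0` (`ℝ≥0∞`-valued), no integrability.
* `integral_unfold_cut584`  : the statement for complex `Φ` with `Φ β` integrable, together with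
  the integrability of `Φ` on `F`.
-/

set_option autoImplicit false
set_option linter.style.haveILetI false

open MeasureTheory Set
open scoped ENNReal

noncomputable section

namespace Fermat.Agent.LT.T7.H584

section Abs

variable {G : Type*} [Group G] [MeasurableSpace G] [MeasurableMul₂ G]
  {T : Type*} [Group T] [MeasurableSpace T] [MeasurableMul₂ T]

/-- Unfolding over a strict fundamental domain for the RIGHT action of `Γ` on `T`. -/
theorem lintegral_unfold_right584 (μT : Measure T) [μT.IsMulRightInvariant] (Γ : Subgroup T)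
    [Countable Γ] (D : Set T) (hDm : MeasurableSet D) (hD : ∀ t : T, ∃! γ : Γ, t * (γ : T) ∈ D)
    (h : T → ℝ≥0∞) (hh : Measurable h) :
    ∫⁻ t, h t ∂μT = ∑' γ : Γ, ∫⁻ t in D, h (t * (γ : T)⁻¹) ∂μT := by
  have hcov : (⋃ γ : Γ, (fun t : T => t * (γ : T)) ⁻¹' D) = univ := by
    ext t
    simp only [mem_iUnion, mem_preimage, mem_univ, iff_true]
    obtain ⟨γ, hγ, -⟩ := hD t
    exact ⟨γ, hγ⟩
  have hdisj : Pairwise (Function.onFun Disjoint fun γ : Γ => (fun t : T => t * (γ : T)) ⁻¹' D) := by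
    intro γ γ' hne
    rw [Function.onFun, Set.disjoint_left]
    intro t ht ht'
    exact hne ((hD t).unique ht ht')
  have hmeas : ∀ γ : Γ, MeasurableSet ((fun t : T => t * (γ : T)) ⁻¹' D) := fun γ =>
    (measurable_mul_const (γ : T)) hDm
  calc ∫⁻ t, h t ∂μT = ∫⁻ t in ⋃ γ : Γ, (fun t : T => t * (γ : T)) ⁻¹' D, h t ∂μT := by
        rw [hcov, Measure.restrict_univ]
    _ = ∑' γ : Γ, ∫⁻ t in (fun t : T => t * (γ : T)) ⁻¹' D, h t ∂μT :=
        lintegral_iUnion hmeas hdisj h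
    _ = ∑' γ : Γ, ∫⁻ t in D, h (t * (γ : T)⁻¹) ∂μT := by
        congr 1
        ext γ
        have hmp : MeasurePreserving (fun t : T => t * (γ : T)⁻¹) μT μT :=
          measurePreserving_mul_right μT _
        have hpre : (fun t : T => t * (γ : T)⁻¹) ⁻¹' ((fun t : T => t * (γ : T)) ⁻¹' D) = D := by
          ext t
          simp [mul_assoc]
        have := hmp.setLIntegral_comp_preimage (hmeas γ) hh
        rw [hpre] at this
        exact this.symm

omit [MeasurableSpace T] [MeasurableMul₂ T] in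
/-- Unfolding over a strict fundamental domain for the LEFT action of `Γ` on `G`. -/
theorem lintegral_unfold_left584 (μ : Measure G) [μ.IsMulLeftInvariant] (j : T →* G)
    (Γ : Subgroup T) [Countable Γ] (F : Set G) (hFm : MeasurableSet F)
    (hF : ∀ x : G, ∃! γ : Γ, j (γ : T) * x ∈ F) (h : G → ℝ≥0∞) (hh : Measurable h) :
    ∫⁻ x, h x ∂μ = ∑' γ : Γ, ∫⁻ x in F, h ((j (γ : T))⁻¹ * x) ∂μ := by
  have hcov : (⋃ γ : Γ, (fun x : G => j (γ : T) * x) ⁻¹' F) = univ := by
    ext x
    simp only [mem_iUnion, mem_preimage, mem_univ, iff_true]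
    obtain ⟨γ, hγ, -⟩ := hF x
    exact ⟨γ, hγ⟩
  have hdisj : Pairwise (Function.onFun Disjoint fun γ : Γ => (fun x : G => j (γ : T) * x) ⁻¹' F) := by
    intro γ γ' hne
    rw [Function.onFun, Set.disjoint_left]
    intro x hx hx'
    exact hne ((hF x).unique hx hx')
  have hmeas : ∀ γ : Γ, MeasurableSet ((fun x : G => j (γ : T) * x) ⁻¹' F) := fun γ =>
    (measurable_const_mul (j (γ : T))) hFm
  calc ∫⁻ x, h x ∂μ = ∫⁻ x in ⋃ γ : Γ, (fun x : G => j (γ : T) * x) ⁻¹' F, h x ∂μ := by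
        rw [hcov, Measure.restrict_univ]
    _ = ∑' γ : Γ, ∫⁻ x in (fun x : G => j (γ : T) * x) ⁻¹' F, h x ∂μ :=
        lintegral_iUnion hmeas hdisj h
    _ = ∑' γ : Γ, ∫⁻ x in F, h ((j (γ : T))⁻¹ * x) ∂μ := by
        congr 1
        ext γ
        have hmp : MeasurePreserving (fun x : G => (j (γ : T))⁻¹ * x) μ μ :=
          measurePreserving_mul_left μ _
        have hpre : (fun x : G => (j (γ : T))⁻¹ * x) ⁻¹' ((fun x : G => j (γ : T) * x) ⁻¹' F)
            = F := by
          ext x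
          simp [← mul_assoc]
        have := hmp.setLIntegral_comp_preimage (hmeas γ) hh
        rw [hpre] at this
        exact this.symm

/-- **The unfolding lemma, non-negative form.** -/
theorem lintegral_unfold_cut584 (μ : Measure G) [μ.IsMulLeftInvariant] [SigmaFinite μ]
    (μT : Measure T) [μT.IsMulRightInvariant] [SigmaFinite μT]
    (j : T →* G) (hj : Measurable j) (Γ : Subgroup T) [Countable Γ]
    (F : Set G) (hFm : MeasurableSet F) (hF : ∀ x : G, ∃! γ : Γ, j (γ : T) * x ∈ F)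
    (D : Set T) (hDm : MeasurableSet D) (hD : ∀ t : T, ∃! γ : Γ, t * (γ : T) ∈ D)
    (Ψ : G → ℝ≥0∞) (hΨ : Measurable Ψ) (hΨT : ∀ (t : T) (x : G), Ψ (j t * x) = Ψ x)
    (β : G → ℝ≥0∞) (hβ : Measurable β) (hβ1 : ∀ x : G, ∫⁻ t, β (j t * x) ∂μT = 1) :
    ∫⁻ x in F, Ψ x ∂μ = μT D * ∫⁻ x, Ψ x * β x ∂μ := by
  set H : G → ℝ≥0∞ := fun x => Ψ x * β x with hHdef
  have hH : Measurable H := hΨ.mul hβ
  -- joint measurability
  have hjm : Measurable fun p : G × T => j p.2 * p.1 :=
    (hj.comp measurable_snd).mul measurable_fst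
  have hHm : ∀ c : G, Measurable fun p : G × T => H (j p.2 * (c * p.1)) := by
    intro c
    have : Measurable fun p : G × T => j p.2 * (c * p.1) :=
      (hj.comp measurable_snd).mul (measurable_const.mul measurable_fst)
    exact hH.comp this
  -- Step 1: `Ψ x = ∫ H (j t x) dt`
  have h1 : ∀ x : G, Ψ x = ∫⁻ t, H (j t * x) ∂μT := by
    intro x
    have hm : Measurable fun t : T => β (j t * x) :=
      hβ.comp (hj.mul measurable_const)
    calc Ψ x = Ψ x * ∫⁻ t, β (j t * x) ∂μT := by rw [hβ1 x, mul_one]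
      _ = ∫⁻ t, Ψ x * β (j t * x) ∂μT := (lintegral_const_mul _ hm).symm
      _ = ∫⁻ t, H (j t * x) ∂μT := by
          refine lintegral_congr fun t => ?_
          simp only [hHdef, hΨT]
  -- Step 2: unfold the inner integral over `T`
  have h2 : ∀ x : G, Ψ x = ∑' γ : Γ, ∫⁻ t in D, H (j t * ((j (γ : T))⁻¹ * x)) ∂μT := by
    intro x
    rw [h1 x]
    have hm : Measurable fun t : T => H (j t * x) := hH.comp (hj.mul measurable_const)
    rw [lintegral_unfold_right584 μT Γ D hDm hD (fun t => H (j t * x)) hm]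
    refine tsum_congr fun γ => ?_
    refine lintegral_congr fun t => ?_
    simp only [map_mul, map_inv, mul_assoc]
  -- measurability of the partial integrals
  have hmx : ∀ γ : Γ, Measurable fun x : G =>
      ∫⁻ t in D, H (j t * ((j (γ : T))⁻¹ * x)) ∂μT := by
    intro γ
    exact Measurable.lintegral_prod_right' (ν := μT.restrict D) (hHm ((j (γ : T))⁻¹))
  have hmt : ∀ γ : Γ, Measurable fun t : T =>
      ∫⁻ x in F, H (j t * ((j (γ : T))⁻¹ * x)) ∂μ := by
    intro γ
    exact Measurable.lintegral_prod_left' (μ := μ.restrict F) (hHm ((j (γ : T))⁻¹))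
  calc ∫⁻ x in F, Ψ x ∂μ
      = ∫⁻ x in F, ∑' γ : Γ, ∫⁻ t in D, H (j t * ((j (γ : T))⁻¹ * x)) ∂μT ∂μ := by
        refine lintegral_congr fun x => h2 x
    _ = ∑' γ : Γ, ∫⁻ x in F, ∫⁻ t in D, H (j t * ((j (γ : T))⁻¹ * x)) ∂μT ∂μ :=
        lintegral_tsum fun γ => (hmx γ).aemeasurable
    _ = ∑' γ : Γ, ∫⁻ t in D, ∫⁻ x in F, H (j t * ((j (γ : T))⁻¹ * x)) ∂μ ∂μT := by
        refine tsum_congr fun γ => ?_
        exact lintegral_lintegral_swap (hHm ((j (γ : T))⁻¹)).aemeasurable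
    _ = ∫⁻ t in D, ∑' γ : Γ, ∫⁻ x in F, H (j t * ((j (γ : T))⁻¹ * x)) ∂μ ∂μT :=
        (lintegral_tsum fun γ => (hmt γ).aemeasurable).symm
    _ = ∫⁻ t in D, ∫⁻ x, H x ∂μ ∂μT := by
        refine lintegral_congr fun t => ?_
        have hm : Measurable fun x : G => H (j t * x) := hH.comp (measurable_const.mul measurable_id)
        rw [← lintegral_unfold_left584 μ j Γ F hFm hF (fun x => H (j t * x)) hm]
        exact lintegral_mul_left_eq_self H (j t)
    _ = μT D * ∫⁻ x, Ψ x * β x ∂μ := by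
        rw [lintegral_const, Measure.restrict_apply MeasurableSet.univ, univ_inter, mul_comm]

/-- The unfolding lemma for real functions. -/
theorem integral_unfold_cut_real584 (μ : Measure G) [μ.IsMulLeftInvariant] [SigmaFinite μ]
    (μT : Measure T) [μT.IsMulRightInvariant] [SigmaFinite μT]
    (j : T →* G) (hj : Measurable j) (Γ : Subgroup T) [Countable Γ]
    (F : Set G) (hFm : MeasurableSet F) (hF : ∀ x : G, ∃! γ : Γ, j (γ : T) * x ∈ F)
    (D : Set T) (hDm : MeasurableSet D) (hD : ∀ t : T, ∃! γ : Γ, t * (γ : T) ∈ D)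
    (f : G → ℝ) (hf : Measurable f) (hfT : ∀ (t : T) (x : G), f (j t * x) = f x)
    (β : G → ℝ) (hβ : Measurable β) (hβ0 : ∀ x, 0 ≤ β x)
    (hβ1 : ∀ x : G, ∫⁻ t, ENNReal.ofReal (β (j t * x)) ∂μT = 1)
    (hint : Integrable (fun x => f x * β x) μ) (hfF : IntegrableOn f F μ) :
    ∫ x in F, f x ∂μ = (μT D).toReal * ∫ x, f x * β x ∂μ := by
  have hβm : Measurable fun x => ENNReal.ofReal (β x) := ENNReal.measurable_ofReal.comp hβ
  have key : ∀ g : G → ℝ, Measurable g → (∀ (t : T) (x : G), g (j t * x) = g x) →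
      ∫⁻ x in F, ENNReal.ofReal (g x) ∂μ = μT D * ∫⁻ x, ENNReal.ofReal (g x * β x) ∂μ := by
    intro g hg hgT
    rw [lintegral_unfold_cut584 μ μT j hj Γ F hFm hF D hDm hD (fun x => ENNReal.ofReal (g x))
      (ENNReal.measurable_ofReal.comp hg) (fun t x => by simp only [hgT])
      (fun x => ENNReal.ofReal (β x)) hβm hβ1]
    congr 1
    refine lintegral_congr fun x => ?_
    rw [ENNReal.ofReal_mul' (hβ0 x)]
  rw [integral_eq_lintegral_pos_part_sub_lintegral_neg_part hfF,
    integral_eq_lintegral_pos_part_sub_lintegral_neg_part hint,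
    key f hf hfT, key (fun x => -f x) hf.neg (fun t x => by simp only [hfT])]
  have e : ∀ x, -f x * β x = -(f x * β x) := fun x => by ring
  simp only [e, ENNReal.toReal_mul]
  ring

/-- **The unfolding lemma** (complex form): `∫_F Φ dμ = μT(D) · ∫_G Φ β dμ`, and `Φ` is integrable
on `F`. -/
theorem integral_unfold_cut584 (μ : Measure G) [μ.IsMulLeftInvariant] [SigmaFinite μ]
    (μT : Measure T) [μT.IsMulRightInvariant] [SigmaFinite μT]
    (j : T →* G) (hj : Measurable j) (Γ : Subgroup T) [Countable Γ]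
    (F : Set G) (hFm : MeasurableSet F) (hF : ∀ x : G, ∃! γ : Γ, j (γ : T) * x ∈ F)
    (D : Set T) (hDm : MeasurableSet D) (hD : ∀ t : T, ∃! γ : Γ, t * (γ : T) ∈ D)
    (hDfin : μT D ≠ ⊤)
    (Φ : G → ℂ) (hΦ : Measurable Φ) (hΦT : ∀ (t : T) (x : G), Φ (j t * x) = Φ x)
    (β : G → ℝ) (hβ : Measurable β) (hβ0 : ∀ x, 0 ≤ β x)
    (hβ1 : ∀ x : G, ∫⁻ t, ENNReal.ofReal (β (j t * x)) ∂μT = 1)
    (hint : Integrable (fun x => Φ x * (β x : ℂ)) μ) :
    IntegrableOn Φ F μ ∧
      ∫ x in F, Φ x ∂μ = ((μT D).toReal : ℂ) * ∫ x, Φ x * (β x : ℂ) ∂μ := by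
  have hβm : Measurable fun x => ENNReal.ofReal (β x) := ENNReal.measurable_ofReal.comp hβ
  -- integrability on `F`
  have hI : IntegrableOn Φ F μ := by
    refine ⟨hΦ.aestronglyMeasurable, ?_⟩
    rw [hasFiniteIntegral_iff_enorm]
    rw [lintegral_unfold_cut584 μ μT j hj Γ F hFm hF D hDm hD (fun x => ‖Φ x‖ₑ)
      hΦ.enorm (fun t x => by simp only [hΦT])
      (fun x => ENNReal.ofReal (β x)) hβm hβ1]
    have h2 : ∫⁻ x, ‖Φ x‖ₑ * ENNReal.ofReal (β x) ∂μ = ∫⁻ x, ‖Φ x * (β x : ℂ)‖ₑ ∂μ := by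
      refine lintegral_congr fun x => ?_
      have e1 : ‖(β x : ℂ)‖ₑ = ENNReal.ofReal (β x) := by
        rw [← ofReal_norm, Complex.norm_real, Real.norm_of_nonneg (hβ0 x)]
      rw [enorm_mul, e1]
    rw [h2]
    exact ENNReal.mul_lt_top hDfin.lt_top hint.hasFiniteIntegral
  refine ⟨hI, ?_⟩
  -- real and imaginary parts
  have hre : Integrable (fun x => (Φ x).re * β x) μ := by
    have := hint.re
    refine this.congr (Filter.Eventually.of_forall fun x => ?_)
    simp
  have him : Integrable (fun x => (Φ x).im * β x) μ := by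
    have := hint.im
    refine this.congr (Filter.Eventually.of_forall fun x => ?_)
    simp
  have hIre : IntegrableOn (fun x => (Φ x).re) F μ := hI.re
  have hIim : IntegrableOn (fun x => (Φ x).im) F μ := hI.im
  have eqre := integral_unfold_cut_real584 μ μT j hj Γ F hFm hF D hDm hD
    (fun x => (Φ x).re) (Complex.measurable_re.comp hΦ) (fun t x => by simp only [hΦT])
    β hβ hβ0 hβ1 hre hIre
  have eqim := integral_unfold_cut_real584 μ μT j hj Γ F hFm hF D hDm hD
    (fun x => (Φ x).im) (Complex.measurable_im.comp hΦ) (fun t x => by simp only [hΦT])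
    β hβ hβ0 hβ1 him hIim
  have r1 : (∫ x in F, Φ x ∂μ).re = ∫ x in F, (Φ x).re ∂μ :=
    (ContinuousLinearMap.integral_comp_comm Complex.reCLM hI).symm
  have i1 : (∫ x in F, Φ x ∂μ).im = ∫ x in F, (Φ x).im ∂μ :=
    (ContinuousLinearMap.integral_comp_comm Complex.imCLM hI).symm
  have r2 : (∫ x, Φ x * (β x : ℂ) ∂μ).re = ∫ x, (Φ x).re * β x ∂μ := by
    refine (ContinuousLinearMap.integral_comp_comm Complex.reCLM hint).symm.trans ?_
    refine integral_congr_ae (Filter.Eventually.of_forall fun x => ?_)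
    simp
  have i2 : (∫ x, Φ x * (β x : ℂ) ∂μ).im = ∫ x, (Φ x).im * β x ∂μ := by
    refine (ContinuousLinearMap.integral_comp_comm Complex.imCLM hint).symm.trans ?_
    refine integral_congr_ae (Filter.Eventually.of_forall fun x => ?_)
    simp
  apply Complex.ext
  · rw [r1, eqre, Complex.re_ofReal_mul, r2]
  · rw [i1, eqim, Complex.im_ofReal_mul, i2]

/-- **The unfolding lemma, converse integrability**: if `Φ` is integrable on `F` and
`0 < μT(D) < ∞`, then `Φ β` is integrable and `∫_F Φ dμ = μT(D) · ∫_G Φ β dμ`.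
(The hypothesis is what `T5.GeomUnfold` delivers.) -/
theorem integral_unfold_cut_of_integrableOn584 (μ : Measure G) [μ.IsMulLeftInvariant]
    [SigmaFinite μ] (μT : Measure T) [μT.IsMulRightInvariant] [SigmaFinite μT]
    (j : T →* G) (hj : Measurable j) (Γ : Subgroup T) [Countable Γ]
    (F : Set G) (hFm : MeasurableSet F) (hF : ∀ x : G, ∃! γ : Γ, j (γ : T) * x ∈ F)
    (D : Set T) (hDm : MeasurableSet D) (hD : ∀ t : T, ∃! γ : Γ, t * (γ : T) ∈ D)
    (hDfin : μT D ≠ ⊤) (hDpos : μT D ≠ 0)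
    (Φ : G → ℂ) (hΦ : Measurable Φ) (hΦT : ∀ (t : T) (x : G), Φ (j t * x) = Φ x)
    (β : G → ℝ) (hβ : Measurable β) (hβ0 : ∀ x, 0 ≤ β x)
    (hβ1 : ∀ x : G, ∫⁻ t, ENNReal.ofReal (β (j t * x)) ∂μT = 1)
    (hIF : IntegrableOn Φ F μ) :
    Integrable (fun x => Φ x * (β x : ℂ)) μ ∧
      ∫ x in F, Φ x ∂μ = ((μT D).toReal : ℂ) * ∫ x, Φ x * (β x : ℂ) ∂μ := by
  have hβm : Measurable fun x => ENNReal.ofReal (β x) := ENNReal.measurable_ofReal.comp hβ
  have hint : Integrable (fun x => Φ x * (β x : ℂ)) μ := by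
    refine ⟨(hΦ.mul (Complex.measurable_ofReal.comp hβ)).aestronglyMeasurable, ?_⟩
    rw [hasFiniteIntegral_iff_enorm]
    have h1 := lintegral_unfold_cut584 μ μT j hj Γ F hFm hF D hDm hD (fun x => ‖Φ x‖ₑ)
      hΦ.enorm (fun t x => by simp only [hΦT])
      (fun x => ENNReal.ofReal (β x)) hβm hβ1
    have h2 : ∫⁻ x, ‖Φ x‖ₑ * ENNReal.ofReal (β x) ∂μ = ∫⁻ x, ‖Φ x * (β x : ℂ)‖ₑ ∂μ := by
      refine lintegral_congr fun x => ?_
      have e1 : ‖(β x : ℂ)‖ₑ = ENNReal.ofReal (β x) := by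
        rw [← ofReal_norm, Complex.norm_real, Real.norm_of_nonneg (hβ0 x)]
      rw [enorm_mul, e1]
    rw [h2] at h1
    have h3 : ∫⁻ x in F, ‖Φ x‖ₑ ∂μ < ⊤ := hIF.hasFiniteIntegral
    rw [h1] at h3
    by_contra hcon
    rw [not_lt, top_le_iff] at hcon
    rw [hcon, ENNReal.mul_top hDpos] at h3
    exact lt_irrefl _ h3
  exact ⟨hint, (integral_unfold_cut584 μ μT j hj Γ F hFm hF D hDm hD hDfin Φ hΦ hΦT β hβ hβ0
    hβ1 hint).2⟩

end Abs

end Fermat.Agent.LT.T7.H584

end
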