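import Mathlib
import Fermat.Agent.LT.H556.A0
import Fermat.Agent.LT.T5.Spec
import Fermat.Agent.LT.T7.H584.UnfoldAbs

/-!
# Row LT, tower T7, geometric half of the comparison (helper584): the UNFOLDING lemma for the
# global terms of `T5.GeomUnfold` / `T7.IsGlobMatch`

OFF-MAIN.  Vocabulary: `LT/H556/A0.lean` (66d3374a), `LT/T5/Spec.lean` v4 (f2d97e70), byte-identical
copies.  Complete proofs, nothing assumed.

The global term of `T5.GeomUnfold` (and of `T7.IsGlobMatch`, both sides) is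
`∫_{Fδ} twTerm r s φ δ dμ`, `Fδ` a strict fundamental domain IN THE SLAB for the `σ`-centraliser
`G^σ_δ(K)` (`T5.IsTwDomain`).  Here it is unfolded to an ADELIC orbital integral with a cut-off
function, in the normalisation of `T6.OrbSumIntC`:

    ∫_{Fδ} twTerm r s φ δ dμ  =  μT(D) · ∫_{GL₂(𝔸)} twTerm r s φ δ (x) β(x) dμ(x)

* `twCentA584 s δ`  : the ADELIC twisted centraliser `T_𝔸 = {t : t⁻¹ δ σ(t) = δ}` (a subgroup of
  `GL₂(𝔸_K)`; for `s = id` the centraliser of `δ`);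
* `latT584 s δ r …` : the discrete subgroup `Γ = G^σ_δ(K) · ⟨r⟩` of `T_𝔸`;
* `μT` a right invariant measure on `T_𝔸`, `D` a strict fundamental domain for `Γ` in `T_𝔸`
  (`μT(D) = vol(G^σ_δ(K) ⟨r⟩ \ T_𝔸)`, finite for elliptic regular norm: `T1.EllipticCompactC`);
* `β ≥ 0` a cut-off function for `T_𝔸`: `∫_{T_𝔸} β(t x) dμT(t) = 1` for every `x`.

The hypotheses on the ray and the slab (`hslab_r`, `hslab_q`) are the two consequences of
`T1.AdNormC` which are used (`‖det r‖ = 2`, product formula).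
-/

set_option autoImplicit false
set_option linter.style.haveILetI false

open IsDedekindDomain NumberField MeasureTheory Set
open scoped ENNReal

noncomputable section

namespace Fermat.Agent.LT.T7.H584

open Fermat.Agent.LT.H556.A0

attribute [local instance] Fermat.Agent.LT.T5.instMeasurableSpaceG

variable {K : Type} [Field K] [NumberField K]

/-- The ADELIC twisted centraliser `{t ∈ GL₂(𝔸_K) : t⁻¹ δ σ(t) = δ}`. -/
def twCentA584 (s : T5.AdelicAut K) (δ : GL (Fin 2) K) : Subgroup (G K) where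
  carrier := {t | t⁻¹ * T5.ratG δ * s.onG t = T5.ratG δ}
  one_mem' := by simp
  mul_mem' := by
    intro a b ha hb
    simp only [Set.mem_ofPred_eq] at ha hb ⊢
    calc (a * b)⁻¹ * T5.ratG δ * s.onG (a * b)
        = b⁻¹ * (a⁻¹ * T5.ratG δ * s.onG a) * s.onG b := by simp [mul_assoc]
      _ = T5.ratG δ := by rw [ha, hb]
  inv_mem' := by
    intro a ha
    simp only [Set.mem_ofPred_eq] at ha ⊢
    calc a⁻¹⁻¹ * T5.ratG δ * s.onG a⁻¹
        = a * (a⁻¹ * T5.ratG δ * s.onG a) * (s.onG a)⁻¹ := by rw [ha]; simp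
      _ = T5.ratG δ := by simp [mul_assoc]

theorem mem_twCentA584 (s : T5.AdelicAut K) (δ : GL (Fin 2) K) (t : G K) :
    t ∈ twCentA584 s δ ↔ t⁻¹ * T5.ratG δ * s.onG t = T5.ratG δ := Iff.rfl

/-- The summand of the twisted kernel is left invariant under the adelic twisted centraliser. -/
theorem twTerm_twCentA_mul584 (r : G K) (s : T5.AdelicAut K) (φ : G K → ℂ) (δ : GL (Fin 2) K)
    (t : twCentA584 s δ) (x : G K) :
    T5.twTerm r s φ δ ((t : G K) * x) = T5.twTerm r s φ δ x := by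
  have ht : (t : G K)⁻¹ * T5.ratG δ * s.onG (t : G K) = T5.ratG δ := t.2
  unfold T5.twTerm
  congr 1
  calc ((t : G K) * x)⁻¹ * T5.ratG δ * s.onG ((t : G K) * x)
      = x⁻¹ * ((t : G K)⁻¹ * T5.ratG δ * s.onG (t : G K)) * s.onG x := by
        simp [mul_assoc]
    _ = x⁻¹ * T5.ratG δ * s.onG x := by rw [ht]

/-- The subgroup `G^σ_δ(K) · ⟨r⟩` of `GL₂(𝔸_K)` (`r` central). -/
def latG584 (s : T5.AdelicAut K) (δ : GL (Fin 2) K) (r : G K) (hrc : ∀ g : G K, r * g = g * r) :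
    Subgroup (G K) where
  carrier := {g | ∃ γ : T5.twStab s δ, ∃ k : ℤ, g = T5.ratG (γ : GL (Fin 2) K) * r ^ k}
  one_mem' := ⟨1, 0, by simp⟩
  mul_mem' := by
    rintro a b ⟨γ, k, rfl⟩ ⟨γ', k', rfl⟩
    refine ⟨γ * γ', k + k', ?_⟩
    have hc : ∀ g : G K, r ^ k * g = g * r ^ k := fun g =>
      ((Commute.zpow_left (show Commute r g from hrc g) k).eq)
    rw [Subgroup.coe_mul, map_mul, zpow_add]
    calc T5.ratG (γ : GL (Fin 2) K) * r ^ k * (T5.ratG (γ' : GL (Fin 2) K) * r ^ k')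
        = T5.ratG (γ : GL (Fin 2) K) * (r ^ k * T5.ratG (γ' : GL (Fin 2) K)) * r ^ k' := by
          simp only [mul_assoc]
      _ = T5.ratG (γ : GL (Fin 2) K) * T5.ratG (γ' : GL (Fin 2) K) * (r ^ k * r ^ k') := by
          rw [hc]; simp only [mul_assoc]
  inv_mem' := by
    rintro a ⟨γ, k, rfl⟩
    refine ⟨γ⁻¹, -k, ?_⟩
    have hc : ∀ g : G K, r ^ k * g = g * r ^ k := fun g =>
      ((Commute.zpow_left (show Commute r g from hrc g) k).eq)
    have hc' : Commute (r ^ k) (T5.ratG (γ : GL (Fin 2) K)) := hc _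
    rw [Subgroup.coe_inv, map_inv, zpow_neg, mul_inv_rev]
    exact (hc'.inv_left.inv_right).eq

/-- The discrete subgroup `Γ = G^σ_δ(K) · ⟨r⟩` of the adelic twisted centraliser. -/
def latT584 (s : T5.AdelicAut K) (δ : GL (Fin 2) K) (r : G K) (hrc : ∀ g : G K, r * g = g * r) :
    Subgroup (twCentA584 s δ) :=
  (latG584 s δ r hrc).subgroupOf (twCentA584 s δ)

theorem mem_latT584 (s : T5.AdelicAut K) (δ : GL (Fin 2) K) (r : G K)
    (hrc : ∀ g : G K, r * g = g * r) (t : twCentA584 s δ) :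
    t ∈ latT584 s δ r hrc ↔
      ∃ γ : T5.twStab s δ, ∃ k : ℤ, (t : G K) = T5.ratG (γ : GL (Fin 2) K) * r ^ k :=
  Iff.rfl

theorem countable_GL584 : Countable (GL (Fin 2) K) := by
  have hK : Countable K := (Module.finBasis ℚ K).equivFun.toEquiv.injective.countable
  have hM : Countable (Matrix (Fin 2) (Fin 2) K) :=
    inferInstanceAs (Countable (Fin 2 → Fin 2 → K))
  exact (Units.val_injective (α := Matrix (Fin 2) (Fin 2) K)).countable

theorem countable_latT584 (s : T5.AdelicAut K) (δ : GL (Fin 2) K) (r : G K)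
    (hrc : ∀ g : G K, r * g = g * r) : Countable (latT584 s δ r hrc) := by
  have := countable_GL584 (K := K)
  have hcount : Countable (T5.twStab s δ × ℤ) := inferInstance
  -- every element of `Γ` is of the form `ratG γ · r^k`
  have hsurj : ∀ t : latT584 s δ r hrc, ∃ p : T5.twStab s δ × ℤ,
      ((t : twCentA584 s δ) : G K) = T5.ratG (p.1 : GL (Fin 2) K) * r ^ p.2 := by
    rintro ⟨t, γ, k, h⟩
    exact ⟨(γ, k), h⟩
  choose f hf using hsurj
  have hinj : Function.Injective f := by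
    intro t t' h
    apply Subtype.ext
    apply Subtype.ext
    rw [hf t, hf t', h]
  exact hinj.countable

theorem ratG_injective584 : Function.Injective (T5.ratG : GL (Fin 2) K → G K) := by
  intro a b h
  apply Units.ext
  ext i j
  have h1 : ((T5.ratG a : G K) : Matrix (Fin 2) (Fin 2) (Adl K)) i j
      = ((T5.ratG b : G K) : Matrix (Fin 2) (Fin 2) (Adl K)) i j := by rw [h]
  have h2 : algebraMap K (Adl K) ((a : Matrix (Fin 2) (Fin 2) K) i j)
      = algebraMap K (Adl K) ((b : Matrix (Fin 2) (Fin 2) K) i j) := h1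
  exact NumberField.AdeleRing.algebraMap_injective (𝓞 K) K h2

/-- `Fδ` is a strict fundamental domain for `Γ = G^σ_δ(K) ⟨r⟩` in the whole group. -/
theorem existsUnique_latT584 (s : T5.AdelicAut K) (δ : GL (Fin 2) K) (r : G K)
    (hrc : ∀ g : G K, r * g = g * r) (hrs : s.onG r = r)
    (hrat : ∀ γ : GL (Fin 2) K, s.onG (T5.ratG γ) = T5.ratG (s.onRat γ))
    (hslab_r : ∀ g : G K, ∃! k : ℤ, r ^ k * g ∈ T5.slab K)
    (hslab_q : ∀ (γ : GL (Fin 2) K) (g : G K), g ∈ T5.slab K → T5.ratG γ * g ∈ T5.slab K)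
    (Fδ : Set (G K)) (hFδ : T5.IsTwDomain s δ Fδ) (x : G K) :
    ∃! γ : latT584 s δ r hrc, (((γ : twCentA584 s δ) : G K)) * x ∈ Fδ := by
  have hc : ∀ (k : ℤ) (g : G K), r ^ k * g = g * r ^ k := fun k g =>
    ((Commute.zpow_left (show Commute r g from hrc g) k).eq)
  -- membership of the generators in the adelic twisted centraliser
  have hγmem : ∀ γ : T5.twStab s δ, T5.ratG (γ : GL (Fin 2) K) ∈ twCentA584 s δ := by
    intro γ
    have h := γ.2
    change (γ : GL (Fin 2) K)⁻¹ * δ * s.onRat (γ : GL (Fin 2) K) = δ at h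
    rw [mem_twCentA584, hrat, ← map_inv, ← map_mul, ← map_mul, h]
  have hrmem : ∀ k : ℤ, r ^ k ∈ twCentA584 s δ := by
    intro k
    rw [mem_twCentA584, map_zpow, hrs, ← zpow_neg, mul_assoc, ← hc k (T5.ratG δ),
      ← mul_assoc, ← zpow_add]
    simp
  obtain ⟨k, hk, hkuniq⟩ := hslab_r x
  obtain ⟨γ, hγ, hγuniq⟩ := hFδ.strict (r ^ k * x) hk
  have hmemT : T5.ratG (γ : GL (Fin 2) K) * r ^ k ∈ twCentA584 s δ :=
    (twCentA584 s δ).mul_mem (hγmem γ) (hrmem k)
  refine ⟨⟨⟨T5.ratG (γ : GL (Fin 2) K) * r ^ k, hmemT⟩, γ, k, rfl⟩, ?_, ?_⟩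
  · change T5.ratG (γ : GL (Fin 2) K) * r ^ k * x ∈ Fδ
    rw [mul_assoc]
    exact hγ
  · rintro ⟨⟨g, hgT⟩, γ', k', hg⟩ hmem
    change g * x ∈ Fδ at hmem
    change g = T5.ratG (γ' : GL (Fin 2) K) * r ^ k' at hg
    subst hg
    rw [mul_assoc] at hmem
    -- `r^k' x` lies in the slab
    have h1 : r ^ k' * x ∈ T5.slab K := by
      have := hslab_q ((γ' : GL (Fin 2) K)⁻¹) _ (hFδ.sub hmem)
      rwa [← mul_assoc, ← map_mul, inv_mul_cancel, map_one, one_mul] at this
    have hk' : k' = k := hkuniq k' h1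
    subst hk'
    have hγ' : γ' = γ := hγuniq γ' hmem
    subst hγ'
    rfl

/-- **THE UNFOLDING LEMMA for the global terms.**  See the header. -/
theorem twTerm_unfold584 (s : T5.AdelicAut K) (μ : Measure (G K)) (r : G K)
    (δ : GL (Fin 2) K) (φ : G K → ℂ)
    [SecondCountableTopology (G K)] [μ.IsMulLeftInvariant] [SigmaFinite μ]
    (hrc : ∀ g : G K, r * g = g * r) (hrs : s.onG r = r)
    (hrat : ∀ γ : GL (Fin 2) K, s.onG (T5.ratG γ) = T5.ratG (s.onRat γ))
    (hslab_r : ∀ g : G K, ∃! k : ℤ, r ^ k * g ∈ T5.slab K)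
    (hslab_q : ∀ (γ : GL (Fin 2) K) (g : G K), g ∈ T5.slab K → T5.ratG γ * g ∈ T5.slab K)
    (Fδ : Set (G K)) (hFδ : T5.IsTwDomain s δ Fδ)
    (μT : Measure (twCentA584 s δ)) [μT.IsMulRightInvariant] [SigmaFinite μT]
    (D : Set (twCentA584 s δ)) (hDm : MeasurableSet D)
    (hD : ∀ t : twCentA584 s δ, ∃! γ : latT584 s δ r hrc, t * (γ : twCentA584 s δ) ∈ D)
    (hDfin : μT D ≠ ⊤)
    (β : G K → ℝ) (hβ : Measurable β) (hβ0 : ∀ x, 0 ≤ β x)
    (hβ1 : ∀ x : G K, ∫⁻ t : twCentA584 s δ, ENNReal.ofReal (β ((t : G K) * x)) ∂μT = 1)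
    (hΦ : Measurable (T5.twTerm r s φ δ))
    (hint : Integrable (fun x => T5.twTerm r s φ δ x * (β x : ℂ)) μ) :
    IntegrableOn (T5.twTerm r s φ δ) Fδ μ ∧
      ∫ x in Fδ, T5.twTerm r s φ δ x ∂μ
        = ((μT D).toReal : ℂ) * ∫ x, T5.twTerm r s φ δ x * (β x : ℂ) ∂μ := by
  haveI : BorelSpace (G K) := ⟨rfl⟩
  haveI : Countable (latT584 s δ r hrc) := countable_latT584 s δ r hrc
  haveI : SecondCountableTopology (twCentA584 s δ) :=
    Topology.IsInducing.subtypeVal.secondCountableTopology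
  haveI : BorelSpace (twCentA584 s δ) := Subtype.borelSpace _
  haveI : MeasurableMul₂ (twCentA584 s δ) := inferInstance
  haveI : MeasurableMul₂ (G K) := inferInstance
  exact integral_unfold_cut584 μ μT (twCentA584 s δ).subtype measurable_subtype_coe
    (latT584 s δ r hrc) Fδ hFδ.meas
    (fun x => existsUnique_latT584 s δ r hrc hrs hrat hslab_r hslab_q Fδ hFδ x)
    D hDm hD hDfin (T5.twTerm r s φ δ) hΦ
    (fun t x => twTerm_twCentA_mul584 r s φ δ t x) β hβ hβ0 hβ1 hint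

end Fermat.Agent.LT.T7.H584

end
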