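import Mathlib
import Fermat.Agent.LT.H556.A0
import Fermat.Agent.LT.T1.Spec
import Fermat.Agent.LT.T5.Spec
import Fermat.Agent.LT.T5.H277.Ray
import Fermat.Agent.LT.T7.H584.UnfoldT5

/-!
# Row LT, tower T7, geometric half of the comparison (helper584): the UNFOLDING lemma in the
# frame of T5 (hypotheses: `T1.LocCompC`, `T1.AdNormC`, `T5.IsFrame`, `T5.IsRayGen`,
# `T5.AutPreserves`)

OFF-MAIN.  Byte-identical copies: A0 66d3374a, T1/Spec e8ae48d6, T5/Spec v4 f2d97e70,
T5/H277/{Basic,Ray} (helper277, from the closure of T5/Closed v8, origin/helper32@3767e091b).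

`twTerm_unfold_frame584`: for a frame `(μ, F, r)` of T5, an automorphism `s` preserving it, a
strict fundamental domain `Fδ` of the `σ`-centraliser of `δ` in the slab, a right invariant
`σ`-finite measure `μT` on the ADELIC twisted centraliser `T_𝔸 = twCentA584 s δ`, a strict
fundamental domain `D` of finite measure for `Γ = G^σ_δ(K) ⟨r⟩` in `T_𝔸` and a cut-off function
`β` for `(T_𝔸, μT)`:

    ∫_{Fδ} twTerm r s φ δ dμ  =  μT(D) · ∫ twTerm r s φ δ (x) β(x) dμ(x).

Both sides of `T7.IsGlobMatch.norm` and the left side of `T7.IsGlobMatch.nonnorm` are of the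
form on the left (`s = D.s` resp. `s = T5.AdelicAut.id K`).
-/

set_option autoImplicit false
set_option linter.style.haveILetI false

open IsDedekindDomain NumberField MeasureTheory Set
open scoped ENNReal

noncomputable section

namespace Fermat.Agent.LT.T7.H584

open Fermat.Agent.LT.H556.A0

attribute [local instance] Fermat.Agent.LT.T5.instMeasurableSpaceG

variable {K : Type} [Field K] [NumberField K]

/-- Every element has exactly one translate by the ray in the slab. -/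
theorem existsUnique_zpow_slab584 (hN : T1.AdNormC K) {r : G K} (hr : T5.IsRayGen r) (g : G K) :
    ∃! k : ℤ, r ^ k * g ∈ T5.slab K := by
  obtain ⟨m, hm⟩ := T5.H277.exists_zpow_mem_slab277 hN hr g
  refine ⟨m, ?_, ?_⟩
  · change r ^ m * g ∈ T5.slab K
    rw [T5.H277.ray_zpow_comm277 hr]
    exact hm
  · intro k hk
    change r ^ k * g ∈ T5.slab K at hk
    rw [T5.H277.ray_zpow_comm277 hr] at hk
    have e : g * r ^ k * r ^ (-k) = g * r ^ m * r ^ (-m) := by
      rw [mul_assoc, mul_assoc, ← zpow_add, ← zpow_add]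
      simp
    have := T5.H277.zpow_eq_of_mem_slab277 hN hr (-k) (-m) hk hm e
    omega

/-- The slab is stable under `GL₂(K)` (product formula). -/
theorem ratG_mul_mem_slab584 (hN : T1.AdNormC K) (γ : GL (Fin 2) K) (g : G K)
    (hg : g ∈ T5.slab K) : T5.ratG γ * g ∈ T5.slab K := by
  rw [T5.H277.mem_slab_iff277] at hg ⊢
  rw [T5.H277.nd277_mul hN, T5.H277.nd277_ratG hN, one_mul]
  exact hg

/-- The discrete subgroup `Γ = G^σ_δ(K) ⟨r⟩` of the adelic twisted centraliser, for a ray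
generator `r`. -/
def latRay584 (s : T5.AdelicAut K) (δ : GL (Fin 2) K) {r : G K} (hr : T5.IsRayGen r) :
    Subgroup (twCentA584 s δ) :=
  latT584 s δ r (T5.H277.ray_comm277 hr)

theorem mem_latRay584 (s : T5.AdelicAut K) (δ : GL (Fin 2) K) {r : G K} (hr : T5.IsRayGen r)
    (t : twCentA584 s δ) :
    t ∈ latRay584 s δ hr ↔
      ∃ γ : T5.twStab s δ, ∃ k : ℤ, (t : G K) = T5.ratG (γ : GL (Fin 2) K) * r ^ k :=
  Iff.rfl

/-- **THE UNFOLDING LEMMA in the frame of T5.**  See the header. -/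
theorem twTerm_unfold_frame584 (hLC : T1.LocCompC K) (hN : T1.AdNormC K)
    (s : T5.AdelicAut K) (𝔫 : Ideal (𝓞 K)) (μ : Measure (G K)) (F : Set (G K)) (r : G K)
    (hF : T5.IsFrame μ F) (hr : T5.IsRayGen r) (hP : T5.AutPreserves s 𝔫 μ r)
    (δ : GL (Fin 2) K) (φ : G K → ℂ)
    (Fδ : Set (G K)) (hFδ : T5.IsTwDomain s δ Fδ)
    (μT : Measure (twCentA584 s δ)) [μT.IsMulRightInvariant] [SigmaFinite μT]
    (D : Set (twCentA584 s δ)) (hDm : MeasurableSet D)
    (hD : ∀ t : twCentA584 s δ, ∃! γ : latRay584 s δ hr, t * (γ : twCentA584 s δ) ∈ D)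
    (hDfin : μT D ≠ ⊤)
    (β : G K → ℝ) (hβ : Measurable β) (hβ0 : ∀ x, 0 ≤ β x)
    (hβ1 : ∀ x : G K, ∫⁻ t : twCentA584 s δ, ENNReal.ofReal (β ((t : G K) * x)) ∂μT = 1)
    (hΦ : Measurable (T5.twTerm r s φ δ))
    (hint : Integrable (fun x => T5.twTerm r s φ δ x * (β x : ℂ)) μ) :
    IntegrableOn (T5.twTerm r s φ δ) Fδ μ ∧
      ∫ x in Fδ, T5.twTerm r s φ δ x ∂μ
        = ((μT D).toReal : ℂ) * ∫ x, T5.twTerm r s φ δ x * (β x : ℂ) ∂μ := by
  haveI : BorelSpace (G K) := ⟨rfl⟩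
  haveI : LocallyCompactSpace (G K) := hLC.2.1
  haveI : SecondCountableTopology (G K) := hLC.2.2.2
  haveI : μ.IsHaarMeasure := hF.haar
  exact twTerm_unfold584 s μ r δ φ (T5.H277.ray_comm277 hr) hP.ray hP.rat
    (fun g => existsUnique_zpow_slab584 hN hr g) (fun γ g hg => ratG_mul_mem_slab584 hN γ g hg)
    Fδ hFδ μT D hDm hD hDfin β hβ hβ0 hβ1 hΦ hint

end Fermat.Agent.LT.T7.H584

end
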