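import Mathlib

/-!
# Row LT, tower T7, geometric half of the comparison (helper584): EXISTENCE OF CUT-OFF FUNCTIONS

OFF-MAIN.  Mathlib only.

`G` a locally compact, `σ`-compact Hausdorff group, `T` a CLOSED subgroup with a right invariant
measure `μT` (finite on compact sets, positive on non-empty open sets; e.g. a Haar measure of a
unimodular `T`).  Then there is a CONTINUOUS `β ≥ 0` on `G` with

    ∫_T β(t x) dμT(t) = 1     for every `x ∈ G`

(`exists_cutoff584`; a Bruhat function of `T \ G`).  This is the cut-off function of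
`T6.OrbSumIntC` (local twisted centralisers) and of `twTerm_unfold_frame584` (adelic twisted
centralisers): both statements are quantified over ALL cut-off functions, this file shows that
there is one.

Construction: `h = ∑ c_n f_n > 0` with `f_n ∈ C_c(G)`, `0 ≤ f_n ≤ 1`, `f_n = 1` on the `n`-th
set of a compact exhaustion, `c_n > 0` so small that `c_n ∫_T f_n(t x) dt ≤ 2^{-n}` uniformly in
`x`; `H(x) = ∫_T h(t x) dt` is continuous, positive and left `T`-invariant; `β = h / H`.
-/

set_option autoImplicit false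
set_option linter.style.haveILetI false
set_option linter.unusedSectionVars false

open MeasureTheory Set Topology
open scoped ENNReal Pointwise

noncomputable section

namespace Fermat.Agent.LT.T7.H584

section Cutoff

variable {G : Type*} [Group G] [TopologicalSpace G] [IsTopologicalGroup G]

/-- The orbital average `x ↦ ∫_T f(t x) dμT(t)`. -/
def orbInt584 (T : Subgroup G) [MeasurableSpace T] (μT : Measure T) (f : G → ℝ) (x : G) : ℝ :=
  ∫ t : T, f ((t : G) * x) ∂μT

theorem isCompact_coe_preimage584 (T : Subgroup G) (hT : IsClosed (T : Set G)) {C : Set G}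
    (hC : IsCompact C) : IsCompact ((fun t : T => (t : G)) ⁻¹' C) :=
  (hT.isClosedEmbedding_subtypeVal).isCompact_preimage hC

theorem section_eq_zero584 (T : Subgroup G) (f : G → ℝ) (W : Set G) {x : G} (hx : x ∈ W)
    {t : T} (ht : t ∉ (fun t : T => (t : G)) ⁻¹' (tsupport f * W⁻¹)) : f ((t : G) * x) = 0 := by
  by_contra hne
  apply ht
  have h1 : (t : G) * x ∈ tsupport f := subset_tsupport f hne
  have h2 : (t : G) = (t : G) * x * x⁻¹ := by group
  show (t : G) ∈ tsupport f * W⁻¹
  rw [h2]
  exact Set.mul_mem_mul h1 (Set.inv_mem_inv.mpr hx)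

variable [LocallyCompactSpace G] [T2Space G]

theorem hasCompactSupport_section584 (T : Subgroup G) (hT : IsClosed (T : Set G)) (f : G → ℝ)
    (hfc : HasCompactSupport f) (x : G) :
    HasCompactSupport fun t : T => f ((t : G) * x) := by
  have hk : IsCompact ((fun t : T => (t : G)) ⁻¹' (tsupport f * ({x} : Set G)⁻¹)) :=
    isCompact_coe_preimage584 T hT (hfc.isCompact.mul isCompact_singleton.inv)
  refine HasCompactSupport.intro hk fun t ht => ?_
  exact section_eq_zero584 T f {x} (mem_singleton x) ht

variable (T : Subgroup G) [MeasurableSpace T] [BorelSpace T] (μT : Measure T)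
  [IsFiniteMeasureOnCompacts μT]

theorem continuous_orbInt584 (hT : IsClosed (T : Set G)) (f : G → ℝ) (hf : Continuous f)
    (hfc : HasCompactSupport f) : Continuous (orbInt584 T μT f) := by
  rw [continuous_iff_continuousAt]
  intro x₀
  obtain ⟨W, hWc, hWn⟩ := exists_compact_mem_nhds x₀
  have hk : IsCompact ((fun t : T => (t : G)) ⁻¹' (tsupport f * W⁻¹)) :=
    isCompact_coe_preimage584 T hT (hfc.isCompact.mul hWc.inv)
  have hcont : Continuous (Function.uncurry fun (x : G) (t : T) => f ((t : G) * x)) := by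
    have : Continuous fun p : G × T => ((p.2 : T) : G) * p.1 :=
      (continuous_subtype_val.comp continuous_snd).mul continuous_fst
    exact hf.comp this
  have hco : ContinuousOn (fun x : G => ∫ t : T, f ((t : G) * x) ∂μT) W :=
    continuousOn_integral_of_compact_support (μ := μT)
      (f := fun (x : G) (t : T) => f ((t : G) * x)) (s := W) hk hcont.continuousOn
      (fun p t hp ht => section_eq_zero584 T f W hp ht)
  exact hco.continuousAt hWn

variable [μT.IsMulRightInvariant]

theorem orbInt_mul584 (f : G → ℝ) (t' : T) (x : G) :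
    orbInt584 T μT f ((t' : G) * x) = orbInt584 T μT f x := by
  unfold orbInt584
  have h := integral_mul_right_eq_self (μ := μT) (fun t : T => f ((t : G) * x)) t'
  rw [← h]
  refine integral_congr_ae (Filter.Eventually.of_forall fun t => ?_)
  simp only [Subgroup.coe_mul, mul_assoc]

theorem orbInt_nonneg584 (f : G → ℝ) (hf0 : ∀ x, 0 ≤ f x) (x : G) : 0 ≤ orbInt584 T μT f x :=
  integral_nonneg fun _ => hf0 _

/-- Uniform bound of the orbital average of a function with values in `[0,1]` supported in
`C`. -/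
theorem orbInt_le584 (f : G → ℝ) (hf1 : ∀ x, f x ≤ 1) (C : Set G)
    (hC : ∀ x, f x ≠ 0 → x ∈ C) (hfin : μT ((fun t : T => (t : G)) ⁻¹' (C * C⁻¹)) ≠ ⊤) (x : G) :
    orbInt584 T μT f x ≤ (μT ((fun t : T => (t : G)) ⁻¹' (C * C⁻¹))).toReal := by
  set E : Set T := {t : T | (t : G) * x ∈ C} with hE
  have h1 : ENNReal.ofReal (orbInt584 T μT f x) ≤ μT E := by
    refine integral_le_measure (fun t _ => hf1 _) (fun t ht => ?_)
    have : f ((t : G) * x) = 0 := by
      by_contra hne
      exact ht (hC _ hne)
    rw [this]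
  have h2 : μT E ≤ μT ((fun t : T => (t : G)) ⁻¹' (C * C⁻¹)) := by
    by_cases hne : E.Nonempty
    · obtain ⟨t₀, ht₀⟩ := hne
      have hsub : E ⊆ (fun t : T => t * t₀⁻¹) ⁻¹' ((fun t : T => (t : G)) ⁻¹' (C * C⁻¹)) := by
        intro t ht
        show ((t * t₀⁻¹ : T) : G) ∈ C * C⁻¹
        have e : ((t * t₀⁻¹ : T) : G) = ((t : G) * x) * ((t₀ : G) * x)⁻¹ := by
          rw [Subgroup.coe_mul, Subgroup.coe_inv]
          group
        rw [e]
        exact Set.mul_mem_mul ht (Set.inv_mem_inv.mpr ht₀)
      calc μT E ≤ μT ((fun t : T => t * t₀⁻¹) ⁻¹' ((fun t : T => (t : G)) ⁻¹' (C * C⁻¹))) :=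
            measure_mono hsub
        _ = μT ((fun t : T => (t : G)) ⁻¹' (C * C⁻¹)) := measure_preimage_mul_right μT _ _
    · rw [Set.not_nonempty_iff_eq_empty.mp hne, measure_empty]
      exact zero_le
  have h3 := (ENNReal.ofReal_le_iff_le_toReal hfin).mp (h1.trans h2)
  exact h3

variable [μT.IsOpenPosMeasure] [SigmaCompactSpace G]

/-- **EXISTENCE OF A CUT-OFF FUNCTION** (Bruhat function of `T \ G`). -/
theorem exists_cutoff584 (hT : IsClosed (T : Set G)) :
    ∃ β : G → ℝ, Continuous β ∧ (∀ x, 0 ≤ β x) ∧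
      (∀ x : G, Integrable (fun t : T => β ((t : G) * x)) μT) ∧
      ∀ x : G, ∫ t : T, β ((t : G) * x) ∂μT = 1 := by
  classical
  -- the compact exhaustion and the Urysohn functions
  let Kc : CompactExhaustion G := CompactExhaustion.choice G
  have hU : ∀ n : ℕ, ∃ f : C(G, ℝ), EqOn f 1 (Kc n) ∧ EqOn f 0 (interior (Kc (n + 1)))ᶜ ∧
      HasCompactSupport f ∧ ∀ x, f x ∈ Icc (0 : ℝ) 1 := fun n =>
    exists_continuous_one_zero_of_isCompact (Kc.isCompact n) isOpen_interior.isClosed_compl
      (disjoint_compl_right_iff_subset.mpr (Kc.subset_interior_succ n))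
  choose f hf1 hf0 hfc hfI using hU
  have hfsupp : ∀ n x, f n x ≠ 0 → x ∈ Kc (n + 1) := by
    intro n x hx
    by_contra hxK
    apply hx
    have : x ∈ (interior (Kc (n + 1)))ᶜ := fun h => hxK (interior_subset h)
    simpa using hf0 n this
  -- the bounds
  set A : ℕ → Set T := fun n => (fun t : T => (t : G)) ⁻¹' (Kc (n + 1) * (Kc (n + 1))⁻¹) with hA
  have hAc : ∀ n, IsCompact (A n) := fun n =>
    isCompact_coe_preimage584 T hT ((Kc.isCompact (n + 1)).mul (Kc.isCompact (n + 1)).inv)
  have hAfin : ∀ n, μT (A n) ≠ ⊤ := fun n => (hAc n).measure_ne_top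
  set m : ℕ → ℝ := fun n => (μT (A n)).toReal with hm
  have hm0 : ∀ n, 0 ≤ m n := fun n => ENNReal.toReal_nonneg
  set c : ℕ → ℝ := fun n => (1 / 2 : ℝ) ^ n / (1 + m n) with hc
  have hcpos : ∀ n, 0 < c n := fun n => div_pos (by positivity) (by linarith [hm0 n])
  have hcle : ∀ n, c n ≤ (1 / 2 : ℝ) ^ n := by
    intro n
    rw [hc]
    exact div_le_self (by positivity) (by linarith [hm0 n])
  have hcm : ∀ n, c n * m n ≤ (1 / 2 : ℝ) ^ n := by
    intro n
    rw [hc]
    simp only
    rw [div_mul_eq_mul_div, div_le_iff₀ (by linarith [hm0 n])]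
    have : (0 : ℝ) ≤ (1 / 2 : ℝ) ^ n := by positivity
    nlinarith [hm0 n]
  have hgeo : Summable fun n : ℕ => (1 / 2 : ℝ) ^ n :=
    summable_geometric_of_lt_one (by norm_num) (by norm_num)
  have hfn0 : ∀ n x, 0 ≤ f n x := fun n x => (hfI n x).1
  have hfn1 : ∀ n x, f n x ≤ 1 := fun n x => (hfI n x).2
  -- the orbital averages of the `f n`
  set Hn : ℕ → G → ℝ := fun n => orbInt584 T μT (f n) with hHn
  have hHn0 : ∀ n x, 0 ≤ Hn n x := fun n x => orbInt_nonneg584 T μT (f n) (hfn0 n) x
  have hHnle : ∀ n x, Hn n x ≤ m n := fun n x =>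
    orbInt_le584 T μT (f n) (hfn1 n) (Kc (n + 1)) (hfsupp n) (hAfin n) x
  have hHnc : ∀ n, Continuous (Hn n) := fun n =>
    continuous_orbInt584 T μT hT (f n) (f n).continuous (hfc n)
  -- the positive function `h` and its orbital average `H`
  set h : G → ℝ := fun x => ∑' n, c n * f n x with hh
  have hsum_h : ∀ x, Summable fun n => c n * f n x := by
    intro x
    refine Summable.of_nonneg_of_le (fun n => mul_nonneg (hcpos n).le (hfn0 n x)) (fun n => ?_) hgeo
    calc c n * f n x ≤ c n * 1 := mul_le_mul_of_nonneg_left (hfn1 n x) (hcpos n).le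
      _ ≤ (1 / 2 : ℝ) ^ n := by rw [mul_one]; exact hcle n
  have hh_cont : Continuous h := by
    refine continuous_tsum (fun n => continuous_const.mul (f n).continuous) hgeo (fun n x => ?_)
    rw [Real.norm_of_nonneg (mul_nonneg (hcpos n).le (hfn0 n x))]
    calc c n * f n x ≤ c n * 1 := mul_le_mul_of_nonneg_left (hfn1 n x) (hcpos n).le
      _ ≤ (1 / 2 : ℝ) ^ n := by rw [mul_one]; exact hcle n
  have hh0 : ∀ x, 0 ≤ h x := fun x => tsum_nonneg fun n => mul_nonneg (hcpos n).le (hfn0 n x)
  set H : G → ℝ := fun x => ∑' n, c n * Hn n x with hH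
  have hsum_H : ∀ x, Summable fun n => c n * Hn n x := by
    intro x
    refine Summable.of_nonneg_of_le (fun n => mul_nonneg (hcpos n).le (hHn0 n x)) (fun n => ?_) hgeo
    calc c n * Hn n x ≤ c n * m n := mul_le_mul_of_nonneg_left (hHnle n x) (hcpos n).le
      _ ≤ (1 / 2 : ℝ) ^ n := hcm n
  have hH_cont : Continuous H := by
    refine continuous_tsum (fun n => continuous_const.mul (hHnc n)) hgeo (fun n x => ?_)
    rw [Real.norm_of_nonneg (mul_nonneg (hcpos n).le (hHn0 n x))]
    calc c n * Hn n x ≤ c n * m n := mul_le_mul_of_nonneg_left (hHnle n x) (hcpos n).le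
      _ ≤ (1 / 2 : ℝ) ^ n := hcm n
  -- integrability of the sections
  have hint_n : ∀ n x, Integrable (fun t : T => c n * f n ((t : G) * x)) μT := by
    intro n x
    refine Integrable.const_mul ?_ _
    have hcs := hasCompactSupport_section584 T hT (f n) (hfc n) x
    have hcont : Continuous fun t : T => f n ((t : G) * x) :=
      (f n).continuous.comp (continuous_subtype_val.mul continuous_const)
    exact hcont.integrable_of_hasCompactSupport hcs
  have hnorm_n : ∀ n x, ∫ t : T, ‖c n * f n ((t : G) * x)‖ ∂μT = c n * Hn n x := by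
    intro n x
    have e : ∀ t : T, ‖c n * f n ((t : G) * x)‖ = c n * f n ((t : G) * x) := fun t =>
      Real.norm_of_nonneg (mul_nonneg (hcpos n).le (hfn0 n _))
    simp only [e]
    rw [integral_const_mul]
    rfl
  -- `H` is the orbital average of `h`
  have hHh : ∀ x, HasSum (fun n => ∫ t : T, c n * f n ((t : G) * x) ∂μT)
      (∫ t : T, h ((t : G) * x) ∂μT) := by
    intro x
    have hs : Summable fun n => ∫ t : T, ‖c n * f n ((t : G) * x)‖ ∂μT := by
      simp only [hnorm_n]
      exact hsum_H x
    exact hasSum_integral_of_summable_integral_norm (hint_n · x) hs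
  have hHeq : ∀ x, ∫ t : T, h ((t : G) * x) ∂μT = H x := by
    intro x
    rw [← (hHh x).tsum_eq]
    refine tsum_congr fun n => ?_
    rw [integral_const_mul]
    rfl
  -- positivity of `H`
  have hHpos : ∀ x, 0 < H x := by
    intro x
    obtain ⟨n, hn⟩ : ∃ n, x ∈ Kc n := by
      have := Kc.iUnion_eq ▸ mem_univ x
      simpa using this
    have hpos : 0 < Hn n x := by
      have hcs := hasCompactSupport_section584 T hT (f n) (hfc n) x
      have hcont : Continuous fun t : T => f n ((t : G) * x) :=
        (f n).continuous.comp (continuous_subtype_val.mul continuous_const)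
      refine hcont.integral_pos_of_hasCompactSupport_nonneg_nonzero hcs
        (fun t => hfn0 n _) (x := (1 : T)) ?_
      have : f n x = 1 := by simpa using hf1 n hn
      simp [this]
    calc 0 < c n * Hn n x := mul_pos (hcpos n) hpos
      _ ≤ H x := (hsum_H x).le_tsum n (fun j _ => mul_nonneg (hcpos j).le (hHn0 j x))
  have hh_int : ∀ x, Integrable (fun t : T => h ((t : G) * x)) μT := by
    intro x
    by_contra hni
    have h0 := integral_undef hni
    have h1 := hHeq x
    have h2 := hHpos x
    rw [h0] at h1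
    linarith
  -- invariance of `H`
  have hHinv : ∀ (t' : T) (x : G), H ((t' : G) * x) = H x := by
    intro t' x
    simp only [hH, hHn, orbInt_mul584]
  -- the cut-off function
  refine ⟨fun x => h x / H x, hh_cont.div hH_cont (fun x => (hHpos x).ne'),
    fun x => div_nonneg (hh0 x) (hHpos x).le, fun x => ?_, fun x => ?_⟩
  · have : (fun t : T => h ((t : G) * x) / H ((t : G) * x))
        = fun t : T => h ((t : G) * x) / H x := by
      funext t
      rw [hHinv]
    rw [this]
    exact (hh_int x).div_const _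
  · have : (fun t : T => h ((t : G) * x) / H ((t : G) * x))
        = fun t : T => h ((t : G) * x) / H x := by
      funext t
      rw [hHinv]
    rw [this, integral_div, hHeq]
    exact div_self (hHpos x).ne'

/-- The cut-off function in the `ℝ≥0∞`-form used by `integral_unfold_cut584`. -/
theorem exists_cutoff_lintegral584 (hT : IsClosed (T : Set G)) :
    ∃ β : G → ℝ, Continuous β ∧ (∀ x, 0 ≤ β x) ∧
      (∀ x : G, Integrable (fun t : T => β ((t : G) * x)) μT) ∧
      (∀ x : G, ∫ t : T, β ((t : G) * x) ∂μT = 1) ∧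
      ∀ x : G, ∫⁻ t : T, ENNReal.ofReal (β ((t : G) * x)) ∂μT = 1 := by
  obtain ⟨β, hβc, hβ0, hβi, hβ1⟩ := exists_cutoff584 T μT hT
  refine ⟨β, hβc, hβ0, hβi, hβ1, fun x => ?_⟩
  rw [← ofReal_integral_eq_lintegral_ofReal (hβi x)
    (Filter.Eventually.of_forall fun t => hβ0 _), hβ1 x, ENNReal.ofReal_one]

end Cutoff

end Fermat.Agent.LT.T7.H584

end
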