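import Mathlib
import Fermat.Agent.LT.H556.A0
import Fermat.Agent.LT.T5.Spec
import Fermat.Agent.LT.T6.Spec
import Fermat.Agent.LT.T7.Matching

/-!
# Row LT, tower T7, field `matched`, part `nonnorm` (helper584): THE LOCAL NORM BRIDGE -- Spec

OFF-MAIN.  Definitions and frozen Props only (the proved top is `NormLocTop.lean`).  No hole,
nothing assumed.  ADDITIVE (new names only, suffix `584`).  Vocabulary: `T6/Spec.lean` v3,
`T7/Matching.lean` (helper797, sha256 0549163e), byte-identical copies.

    nonNormLoc_of584 : T6.NormImageTCC → T6.InstSplitC → TensorFieldC584 → TensorSplitC584 →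
        SplitOrUniqueC584 K K' → NonNormLocC584 K K'

## Why

`T7.IsGlobMatch.nonnorm` asks that the global orbital integrals of `f` vanish at the elliptic
`γ ∈ GL₂(K)` which are NOT norms.  The local matching (`T6.BadMatchC`, `T6.FLVanishC`; the field
`inert` of `H305.LocHyp305`) gives the vanishing of the local orbit sum at a place `v` with ONE
place `w` over it when `γ` is not a norm from `GL₂(K'_w)` (`T6.IsNormFrom` for the COMPLETIONS,
local data `(e, i, s_w)` as in `T6.InstExtC`).  The local-global principle of T6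
(`T6.NormImageTCC`, from the Hasse norm theorem of tower CFT) is stated with the TENSOR PRODUCT
`K' ⊗_K K_v` (`T6.IsLocNormFin`).  This file is the bridge:

**`NonNormLocC584 K K'`**: if the elliptic `γ` is not a norm (`T7.IsNormOf`), there is a finite
place `v` of `K` with exactly one place `w` of `K'` over it such that for ALL local data
`(e, i, s_w)` the image of `γ` in `GL₂(K_v)` is not a norm from `GL₂(K'_w)`.

## The leaves (abstract algebra: fields and tensor products; one leaf on places)

* **`TensorFieldC584`** (N1, MATHLIB + T6/Spec, abstract fields): `K'/K` of prime degree `l`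
  with a non-trivial `K`-automorphism `s`; `k'/k` cyclic of degree `l` (`T6.IsCyclicData`) with
  compatible embeddings `K → k`, `j : K' → k'`, `s_w ∘ j = j ∘ s`.  Then `K' ⊗_K k → k'` is an
  isomorphism, and a norm from `GL₂(k')` is a norm from `GL₂(K' ⊗_K k)`.
* **`TensorSplitC584`** (N2, MATHLIB + T6/Spec, abstract fields): `K'/K` Galois with group
  generated by `s`, of degree `l`, and a `K`-embedding `τ : K' → k`.  Then
  `K' ⊗_K k ≅ k^l` (with the cyclic shift) and EVERY `γ ∈ GL₂(k)` is a norm from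
  `GL₂(K' ⊗_K k)`.
* **`SplitOrUniqueC584 K K'`** (N3, number fields, Mathlib): for `K'/K` Galois of prime degree a
  finite place `v` of `K` has exactly one place over it, or a place `w` over it with
  `e = f = 1` (the hypotheses of `T6.InstSplitC`).
-/

set_option autoImplicit false

open IsDedekindDomain NumberField

noncomputable section

namespace Fermat.Agent.LT.T7.H584

open Fermat.Agent.LT.H556.A0

/-! ## 1. The abstract leaves -/

/-- The automorphism `s ⊗ 1` of `K' ⊗_K k` (the shape of `T6.locAutFin`). -/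
def tensorAut584 {K K' k : Type} [Field K] [Field K'] [Field k] [Algebra K K'] [Algebra K k]
    (s : K' ≃ₐ[K] K') : TensorProduct K K' k ≃+* TensorProduct K K' k :=
  (Algebra.TensorProduct.congr s (AlgEquiv.refl : k ≃ₐ[K] k)
    : TensorProduct K K' k ≃ₐ[K] TensorProduct K K' k).toRingEquiv

/-- The inclusion `k → K' ⊗_K k`. -/
def tensorIncl584 (K K' k : Type) [Field K] [Field K'] [Field k] [Algebra K K'] [Algebra K k] :
    k →+* TensorProduct K K' k :=
  ((Algebra.TensorProduct.includeRight : k →ₐ[K] TensorProduct K K' k)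
    : k →+* TensorProduct K K' k)

/-- **LEAF N1 = TENSOR-FIELD (abstract fields; MATHLIB + T6/Spec).**
`K'/K` finite of prime degree `l`, `s` a non-trivial `K`-automorphism of `K'`; `i : k → k'`,
`s_w` with `T6.IsCyclicData k k' l i s_w`; `K → k` (algebra) and `j : K' → k'` with
`i ∘ (K → k) = j ∘ (K → K')` and `s_w ∘ j = j ∘ s`.  Then every `γ ∈ GL₂(k)` which is a norm from
`GL₂(k')` is a norm from `GL₂(K' ⊗_K k)`.
Proof.  `m : K' ⊗_K k → k'`, `x ⊗ a ↦ j(x) i(a)` is a ring homomorphism with
`m ∘ (s ⊗ 1) = s_w ∘ m` (`s_w` fixes `i(k)`) and `m ∘ includeRight = i`.  `[k' : i(k)] = l`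
(Artin: `s_w` has order exactly `l` and fixed field `i(k)`), `dim_k (K' ⊗_K k) = l`.  The image of
`m` is a finite-dimensional `k`-subalgebra of the field `k'`, hence an intermediate field `L`,
stable under `s_w`; `l` is prime, so `L = i(k)` or `L = k'`; `L = i(k)` would give
`j(s x) = s_w(j x) = j x` for all `x`, i.e. `s = 1`.  So `m` is surjective, hence bijective
(equal dimensions).  For `δ_w ∈ GL₂(k')` put `δ = m⁻¹(δ_w)`:
`N_{s ⊗ 1}(δ) = m⁻¹(N_{s_w}(δ_w))` is conjugate to `m⁻¹(i(γ)) = includeRight(γ)`. -/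
def TensorFieldC584 : Prop :=
  ∀ (K K' k k' : Type) [Field K] [Field K'] [Field k] [Field k'] [Algebra K K'] [Algebra K k]
    (s : K' ≃ₐ[K] K') (l : ℕ), l.Prime → Module.finrank K K' = l → (∃ x : K', s x ≠ x) →
    ∀ (i : k →+* k') (j : K' →+* k') (sw : k' ≃+* k'),
      (∀ x : K, i (algebraMap K k x) = j (algebraMap K K' x)) →
      (∀ y : K', sw (j y) = j (s y)) →
      T6.IsCyclicData k k' l i sw →
      ∀ γ : GL (Fin 2) k, T6.IsNormFrom l i sw γ →
        ∃ δ : GL (Fin 2) (TensorProduct K K' k),
          IsConj (T6.twNorm (tensorAut584 s) l δ)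
            (Matrix.GeneralLinearGroup.map (tensorIncl584 K K' k) γ)

/-- **LEAF N2 = TENSOR-SPLIT (abstract fields; MATHLIB + T6/Spec).**
`K'/K` finite Galois of degree `l` with group generated by `s`, and a `K`-embedding
`τ : K' → k`.  Then every `γ ∈ GL₂(k)` is the norm of an element of `GL₂(K' ⊗_K k)`.
Proof.  `Θ : K' ⊗_K k → k^l`, `Θ(x ⊗ a)_j = τ(s^j x) a` is a homomorphism of `k`-algebras with
`Θ ∘ (s ⊗ 1) = shift ∘ Θ` (`shift(y)_j = y_{j+1}`, indices modulo `l`: `s^l = 1`) and
`Θ(includeRight a) = (a, …, a)`.  The `l` characters `pr_j ∘ Θ` of the image are pairwise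
distinct (`τ` is injective, `s^j ≠ s^{j'}` on `K'`), hence linearly independent (Dedekind), so the
image has dimension `≥ l` and `Θ` is surjective, hence bijective (`dim_k (K' ⊗_K k) = l`).
`δ = Θ⁻¹(γ, 1, …, 1)`: `Θ(N δ)_j = δ_j δ_{j+1} ⋯ δ_{j+l-1} = γ`. -/
def TensorSplitC584 : Prop :=
  ∀ (K K' k : Type) [Field K] [Field K'] [Field k] [Algebra K K'] [Algebra K k]
    [FiniteDimensional K K'] [IsGalois K K']
    (s : K' ≃ₐ[K] K') (l : ℕ), Module.finrank K K' = l →
    (∀ t : K' ≃ₐ[K] K', t ∈ Subgroup.zpowers s) →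
    ∀ (_τ : K' →ₐ[K] k) (γ : GL (Fin 2) k),
      ∃ δ : GL (Fin 2) (TensorProduct K K' k),
        T6.twNorm (tensorAut584 s) l δ
          = Matrix.GeneralLinearGroup.map (tensorIncl584 K K' k) γ

/-! ## 2. The leaf on places and the node -/

section NumberFields

variable (K K' : Type) [Field K] [NumberField K] [Field K'] [NumberField K'] [Algebra K K']

/-- **LEAF N3 = SPLIT-OR-UNIQUE (number fields; Mathlib).**  `K'/K` Galois of prime degree `l`:
a finite place `v` of `K` has exactly one place of `K'` over it, or there is a place `w` over it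
with residue degree and ramification index `1` (the hypotheses of `T6.InstSplitC`).
Proof.  `g e f = l` for a Galois extension
(`Ideal.ncard_primesOver_mul_ramificationIdxIn_mul_inertiaDegIn`); `l` is prime; if `g ≠ 1` then
`g = l`, `e = f = 1`; `N w = (N v)^f`; `e = 1` means `v 𝒪_{K'} ⊄ w²`.  Existence of a place over
`v`: lying over. -/
def SplitOrUniqueC584 : Prop :=
  ∀ l : ℕ, IsCycExt K K' l → ∀ v : HeightOneSpectrum (𝓞 K),
    (∃ w : HeightOneSpectrum (𝓞 K'), PlaceOver K K' v w ∧
      ∀ w' : HeightOneSpectrum (𝓞 K'), PlaceOver K K' v w' → w' = w) ∨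
    ∃ w : HeightOneSpectrum (𝓞 K'),
      (∀ x : 𝓞 K, x ∈ v.asIdeal ↔ algebraMap (𝓞 K) (𝓞 K') x ∈ w.asIdeal) ∧
      Ideal.absNorm w.asIdeal = Ideal.absNorm v.asIdeal ∧
      ∃ x : 𝓞 K, x ∈ v.asIdeal ∧ algebraMap (𝓞 K) (𝓞 K') x ∉ w.asIdeal ^ 2

/-- **THE NODE = NON-NORM-LOC.**  An elliptic `γ ∈ GL₂(K)` which is not a norm from `GL₂(K')`
is not a local norm at some finite place `v` with exactly one place `w` over it, for ALL local
data `(e, i, s_w)` (the quantifiers of the field `inert` of `H305.LocHyp305`). -/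
def NonNormLocC584 : Prop :=
  ∀ D : CompData K K', IsCompData D → IsCycExt K K' D.l → TotCplx K →
    ∀ γ : GL (Fin 2) K, T6.IsEll γ → (¬ ∃ δ : GL (Fin 2) K', IsNormOf D δ γ) →
      ∃ (v : HeightOneSpectrum (𝓞 K)) (w : HeightOneSpectrum (𝓞 K')),
        PlaceOver K K' v w ∧
        (∀ w' : HeightOneSpectrum (𝓞 K'), PlaceOver K K' v w' → w' = w) ∧
        ∀ (e : ℕ) (i : v.adicCompletion K →+* w.adicCompletion K')
          (sw : w.adicCompletion K' ≃+* w.adicCompletion K'),
          (∀ x : K, i (algebraMap K (v.adicCompletion K) x)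
            = algebraMap K' (w.adicCompletion K') (algebraMap K K' x)) →
          (∀ y : K', sw (algebraMap K' (w.adicCompletion K') y)
            = algebraMap K' (w.adicCompletion K') (D.s.σ y)) →
          T6.IsLocalExt (v.adicCompletion K) (w.adicCompletion K') D.l e i sw →
          ¬ T6.IsNormFrom D.l i sw
            (Matrix.GeneralLinearGroup.map (algebraMap K (v.adicCompletion K)) γ)

end NumberFields

end Fermat.Agent.LT.T7.H584

end
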