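import Mathlib
import Fermat.Agent.LT.T7.H584.NormLocSpec

/-!
# Row LT, tower T7, field `matched`, part `nonnorm` (helper584): THE LOCAL NORM BRIDGE -- the
# PROVED top

OFF-MAIN.  `nonNormLoc_of584 : T6.NormImageTCC → T6.InstSplitC → TensorFieldC584 →
TensorSplitC584 → SplitOrUniqueC584 K K' → NonNormLocC584 K K'`.  See `NormLocSpec.lean`.
-/

set_option autoImplicit false
set_option linter.style.haveILetI false

open IsDedekindDomain NumberField

noncomputable section

namespace Fermat.Agent.LT.T7.H584

open Fermat.Agent.LT.H556.A0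

/-- Bridge `T6.twNorm` ↔ `T5.normUpTo`. -/
theorem twNorm_eq_normUpTo584 {K : Type} [Field K] [NumberField K] (s : T5.AdelicAut K) :
    ∀ (n : ℕ) (δ : GL (Fin 2) K), T6.twNorm s.σ n δ = s.normUpTo n δ
  | 0, _ => rfl
  | n + 1, δ => by
      have ih := twNorm_eq_normUpTo584 s n δ
      change δ * T6.glAut s.σ (T6.twNorm s.σ n δ) = δ * s.onRat (s.normUpTo n δ)
      rw [ih]
      rfl

section

variable {K K' : Type} [Field K] [NumberField K] [Field K'] [NumberField K'] [Algebra K K']

/-- The generator as a `K`-algebra automorphism. -/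
def algAut584 (D : CompData K K') (hD : IsCompData D) : K' ≃ₐ[K] K' :=
  AlgEquiv.ofRingEquiv (f := D.s.σ) (fun x =>
    (hD.cyc.fixed _).1 ((hD.base _).2 ⟨x, rfl⟩))

theorem algAut_apply584 (D : CompData K K') (hD : IsCompData D) (y : K') :
    algAut584 D hD y = D.s.σ y := rfl

theorem algAut_coe584 (D : CompData K K') (hD : IsCompData D) :
    ((algAut584 D hD : K' ≃ₐ[K] K') : K' ≃+* K') = D.s.σ :=
  RingEquiv.ext fun _ => rfl

theorem algAut_ne_one584 (D : CompData K K') (hD : IsCompData D) (hl : 1 < D.l) :
    ∃ x : K', algAut584 D hD x ≠ x := by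
  obtain ⟨x, hx⟩ := hD.cyc.faithful 1 one_pos hl
  refine ⟨x, ?_⟩
  rw [pow_one] at hx
  exact hx

/-- The generator generates the Galois group (a group of prime order). -/
theorem algAut_gen584 (D : CompData K K') (hD : IsCompData D) (hc : IsCycExt K K' D.l) :
    ∀ t : K' ≃ₐ[K] K', t ∈ Subgroup.zpowers (algAut584 D hD) := by
  haveI := hc.galois
  haveI : Fact D.l.Prime := ⟨hc.prime⟩
  have hcard : Nat.card (K' ≃ₐ[K] K') = D.l := by
    rw [IsGalois.card_aut_eq_finrank, hc.degree]
  have hne : algAut584 D hD ≠ 1 := by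
    obtain ⟨x, hx⟩ := algAut_ne_one584 D hD hc.prime.one_lt
    intro h
    apply hx
    rw [h]
    rfl
  have htop : Subgroup.zpowers (algAut584 D hD) = ⊤ :=
    zpowers_eq_top_of_prime_card hcard hne
  intro t
  rw [htop]
  exact Subgroup.mem_top t

end

section Top

variable {K K' : Type} [Field K] [NumberField K] [Field K'] [NumberField K'] [Algebra K K']

/-- **THE TOP of the local norm bridge.** -/
theorem nonNormLoc_of584 (hNI : T6.NormImageTCC) (hIS : T6.InstSplitC)
    (h1 : TensorFieldC584) (h2 : TensorSplitC584) (h3 : SplitOrUniqueC584 K K') :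
    NonNormLocC584 K K' := by
  intro D hD hc hTC γ hγ hnn
  by_contra hcon
  push Not at hcon
  apply hnn
  haveI := hc.galois
  set s : K' ≃ₐ[K] K' := algAut584 D hD with hs
  have hgen := algAut_gen584 D hD hc
  have hprime : (Module.finrank K K').Prime := by rw [hc.degree]; exact hc.prime
  -- `γ` is a norm at every finite place
  have hloc : ∀ v : HeightOneSpectrum (𝓞 K), T6.IsLocNormFin s (Module.finrank K K') v γ := by
    intro v
    rw [hc.degree]
    rcases h3 D.l hc v with ⟨w, hvw, huniq⟩ | ⟨w, hw1, hw2, hw3⟩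
    · obtain ⟨e, i, sw, hi, hsw, hext, hnorm⟩ := hcon v w hvw huniq
      obtain ⟨δ, hδ⟩ := h1 K K' (v.adicCompletion K) (w.adicCompletion K') s D.l hc.prime
        hc.degree (algAut_ne_one584 D hD hc.prime.one_lt) i
        (algebraMap K' (w.adicCompletion K')) sw hi (fun y => hsw y) hext.cyc
        (Matrix.GeneralLinearGroup.map (algebraMap K (v.adicCompletion K)) γ) hnorm
      exact ⟨δ, hδ⟩
    · obtain ⟨i, hi, _⟩ := hIS K K' v w hw1 hw2 hw3
      let τ : K' →ₐ[K] v.adicCompletion K :=
        { toRingHom := (i.symm : w.adicCompletion K' →+* v.adicCompletion K).comp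
            (algebraMap K' (w.adicCompletion K'))
          commutes' := fun x => by
            change i.symm (algebraMap K' (w.adicCompletion K') (algebraMap K K' x))
              = algebraMap K (v.adicCompletion K) x
            rw [← hi x]
            exact i.symm_apply_apply _ }
      obtain ⟨δ, hδ⟩ := h2 K K' (v.adicCompletion K) s D.l hc.degree hgen τ
        (Matrix.GeneralLinearGroup.map (algebraMap K (v.adicCompletion K)) γ)
      refine ⟨δ, ?_⟩
      have : T6.twNorm (T6.locAutFin s v) D.l δ
          = Matrix.GeneralLinearGroup.map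
            ((Algebra.TensorProduct.includeRight :
                v.adicCompletion K →ₐ[K] T6.locAlgFin K K' v)
              : v.adicCompletion K →+* T6.locAlgFin K K' v)
            (Matrix.GeneralLinearGroup.map (algebraMap K (v.adicCompletion K)) γ) := hδ
      rw [this]
  -- the local-global principle
  obtain ⟨δ, hδ⟩ := hNI K K' s hgen hprime hTC γ hγ hloc
  refine ⟨δ, ?_⟩
  unfold IsNormOf
  rw [← twNorm_eq_normUpTo584, ← hc.degree]
  have e : ((s : K' ≃ₐ[K] K') : K' ≃+* K') = D.s.σ := algAut_coe584 D hD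
  rw [← e]
  exact hδ

end Top

end Fermat.Agent.LT.T7.H584

end
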