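import Mathlib
import Fermat.Agent.LT.T7.H584.NormLocSpec

/-!
# Row LT, tower T7, local norm bridge (helper584): the leaf N1 `TensorFieldC584` PROVED

OFF-MAIN.  Mathlib + `T6/Spec.lean` + `NormLocSpec.lean`.  `tensorFieldC584 : TensorFieldC584`.

Route (no Artin, no dimension of the tensor product): `b` a `K`-basis of `K'` indexed by
`ZMod l`; the matrix `N = (j(s^r b_t))_{r,t}` over `k'` is invertible (Dedekind: the characters
`j ∘ s^r` of `K'` are pairwise distinct).  `m : K' ⊗_K k → k'`, `m(∑ b_t ⊗ a_t) = ∑ j(b_t) i(a_t)`: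
* injective: `m z = 0` gives `N · (i a) = 0` (apply the powers of `s_w`), so `a = 0`;
* surjective: for `y ∈ k'` solve `N c = (s_w^r y)_r`; `s_w c` solves the same system (the rows are
  permuted), so `c` is fixed by `s_w`, `c = i(a)`, and `m(∑ b_t ⊗ a_t) = (N c)_0 = y`.
-/

set_option autoImplicit false
set_option linter.style.haveILetI false
set_option linter.unusedSectionVars false

open scoped TensorProduct

noncomputable section

namespace Fermat.Agent.LT.T7.H584

section Map

variable {K K' k k' : Type} [Field K] [Field K'] [Field k] [Field k'] [Algebra K K']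
  [Algebra K k]

/-- The homomorphism `m : K' ⊗_K k → k'`, `x ⊗ a ↦ j(x) i(a)`. -/
def tfMap584 (i : k →+* k') (j : K' →+* k')
    (hij : ∀ x : K, i (algebraMap K k x) = j (algebraMap K K' x)) : K' ⊗[K] k →+* k' :=
  letI : Algebra K k' := (j.comp (algebraMap K K')).toAlgebra
  let f : K' →ₐ[K] k' := { j with commutes' := fun _ => rfl }
  let g : k →ₐ[K] k' := { i with commutes' := fun x => hij x }
  (Algebra.TensorProduct.lift f g (fun _ _ => Commute.all _ _)).toRingHom

theorem tfMap_tmul584 (i : k →+* k') (j : K' →+* k')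
    (hij : ∀ x : K, i (algebraMap K k x) = j (algebraMap K K' x)) (x : K') (a : k) :
    tfMap584 i j hij (x ⊗ₜ[K] a) = j x * i a := by
  letI : Algebra K k' := (j.comp (algebraMap K K')).toAlgebra
  exact Algebra.TensorProduct.lift_tmul _ _ _ x a

/-- Every element of `K' ⊗_K k` is `∑ b_t ⊗ a_t` for a basis `b` of `K'`. -/
theorem exists_repr584 {ι : Type} [Fintype ι] (b : Module.Basis ι K K') (z : K' ⊗[K] k) :
    ∃ a : ι → k, z = ∑ t, b t ⊗ₜ[K] a t := by
  induction z using TensorProduct.induction_on with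
  | zero => exact ⟨fun _ => 0, by simp⟩
  | tmul x y =>
    refine ⟨fun t => (b.repr x t) • y, ?_⟩
    conv_lhs => rw [← b.sum_repr x]
    rw [TensorProduct.sum_tmul]
    refine Finset.sum_congr rfl fun t _ => ?_
    rw [TensorProduct.smul_tmul]
  | add x y hx hy =>
    obtain ⟨a, rfl⟩ := hx
    obtain ⟨a', rfl⟩ := hy
    refine ⟨fun t => a t + a' t, ?_⟩
    rw [← Finset.sum_add_distrib]
    refine Finset.sum_congr rfl fun t _ => ?_
    rw [TensorProduct.tmul_add]

end Map

/-! ## Powers indexed by `ZMod l` -/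

section Pow

variable {M : Type*} [Monoid M]

theorem pow_mod_of_pow_eq_one584 {x : M} {l : ℕ} (h : x ^ l = 1) (n : ℕ) :
    x ^ (n % l) = x ^ n := by
  conv_rhs => rw [← Nat.mod_add_div n l]
  rw [pow_add, pow_mul, h, one_pow, mul_one]

theorem pow_val_add_one584 {x : M} {l : ℕ} [Fact l.Prime] (h : x ^ l = 1) (r : ZMod l) :
    x ^ (r + 1).val = x ^ r.val * x := by
  haveI : Fact (1 < l) := ⟨(Fact.out : l.Prime).one_lt⟩
  rw [ZMod.val_add, ZMod.val_one, pow_mod_of_pow_eq_one584 h, pow_succ]

end Pow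

section Main

variable {K K' k k' : Type} [Field K] [Field K'] [Field k] [Field k'] [Algebra K K']
  [Algebra K k]

/-- The hypotheses of `TensorFieldC584`, bundled. -/
structure TFHyp584 (s : K' ≃ₐ[K] K') (l : ℕ) (i : k →+* k') (j : K' →+* k')
    (sw : k' ≃+* k') : Prop where
  prime : l.Prime
  rank : Module.finrank K K' = l
  ne : ∃ x : K', s x ≠ x
  hij : ∀ x : K, i (algebraMap K k x) = j (algebraMap K K' x)
  hs : ∀ y : K', sw (j y) = j (s y)
  cyc : T6.IsCyclicData k k' l i sw

variable {s : K' ≃ₐ[K] K'} {l : ℕ} {i : k →+* k'} {j : K' →+* k'} {sw : k' ≃+* k'}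

theorem TFHyp584.sw_pow_j (h : TFHyp584 s l i j sw) (n : ℕ) (y : K') :
    (sw ^ n) (j y) = j ((s ^ n) y) := by
  induction n generalizing y with
  | zero => rfl
  | succ n ih =>
    rw [pow_succ, pow_succ]
    change (sw ^ n) (sw (j y)) = j ((s ^ n) (s y))
    rw [h.hs, ih]

theorem TFHyp584.sw_pow_i (h : TFHyp584 s l i j sw) (n : ℕ) (a : k) :
    (sw ^ n) (i a) = i a := by
  induction n with
  | zero => rfl
  | succ n ih =>
    rw [pow_succ]
    change (sw ^ n) (sw (i a)) = i a
    rw [h.cyc.fix_i, ih]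

theorem TFHyp584.sw_pow_l (h : TFHyp584 s l i j sw) : sw ^ l = 1 :=
  RingEquiv.ext fun y => h.cyc.order y

theorem TFHyp584.s_pow_l (h : TFHyp584 s l i j sw) : s ^ l = 1 := by
  apply AlgEquiv.ext
  intro y
  apply j.injective
  rw [← h.sw_pow_j, h.sw_pow_l]
  rfl

theorem TFHyp584.s_ne_one (h : TFHyp584 s l i j sw) : s ≠ 1 := by
  obtain ⟨x, hx⟩ := h.ne
  intro e
  apply hx
  rw [e]
  rfl

theorem TFHyp584.orderOf_s (h : TFHyp584 s l i j sw) : orderOf s = l := by
  haveI : Fact l.Prime := ⟨h.prime⟩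
  exact orderOf_eq_prime h.s_pow_l h.s_ne_one

/-- The powers `s^r`, `r ∈ ZMod l`, are pairwise distinct. -/
theorem TFHyp584.pow_val_injective (h : TFHyp584 s l i j sw) :
    Function.Injective fun r : ZMod l => s ^ r.val := by
  haveI : Fact l.Prime := ⟨h.prime⟩
  intro r r' hrr
  have h1 : r.val < orderOf s := by rw [h.orderOf_s]; exact ZMod.val_lt r
  have h2 : r'.val < orderOf s := by rw [h.orderOf_s]; exact ZMod.val_lt r'
  have := pow_injOn_Iio_orderOf (x := s) h1 h2 hrr
  exact ZMod.val_injective l this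

/-- The matrix `N = (j(s^r b_t))_{r,t}`. -/
def tfMat584 (s : K' ≃ₐ[K] K') (l : ℕ) (j : K' →+* k') (b : Module.Basis (ZMod l) K K') :
    Matrix (ZMod l) (ZMod l) k' :=
  Matrix.of fun r t => j ((s ^ r.val) (b t))

/-- **Dedekind**: the matrix `N` is invertible. -/
theorem TFHyp584.isUnit_mat [Fact l.Prime] (h : TFHyp584 s l i j sw)
    (b : Module.Basis (ZMod l) K K') : IsUnit (tfMat584 s l j b) := by
  rw [← Matrix.linearIndependent_rows_iff_isUnit]
  rw [Fintype.linearIndependent_iff]
  intro g hg r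
  -- the characters
  let χ : ZMod l → (K' →* k') := fun r =>
    (j : K' →* k').comp ((s ^ r.val : K' ≃ₐ[K] K') : K' →* K')
  have hχinj : Function.Injective χ := by
    intro r r' hrr
    apply h.pow_val_injective
    apply AlgEquiv.ext
    intro y
    apply j.injective
    exact DFunLike.congr_fun hrr y
  have hli : LinearIndependent k' (fun r : ZMod l => ((χ r : K' →* k') : K' → k')) :=
    (linearIndependent_monoidHom K' k').comp χ hχinj
  rw [Fintype.linearIndependent_iff] at hli
  refine hli g ?_ r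
  funext x
  have hgt : ∀ t : ZMod l, ∑ r : ZMod l, g r * j ((s ^ r.val) (b t)) = 0 := by
    intro t
    have := congrFun hg t
    simpa [tfMat584, Matrix.row, Finset.sum_apply] using this
  simp only [Finset.sum_apply, Pi.smul_apply, smul_eq_mul, Pi.zero_apply]
  have hx : ∀ r : ZMod l, (χ r) x
      = ∑ t : ZMod l, j (algebraMap K K' (b.repr x t)) * j ((s ^ r.val) (b t)) := by
    intro r
    change j ((s ^ r.val) x) = _
    conv_lhs => rw [← b.sum_repr x]
    rw [map_sum, map_sum]
    refine Finset.sum_congr rfl fun t _ => ?_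
    rw [Algebra.smul_def, map_mul, map_mul, AlgEquiv.commutes]
  calc ∑ r : ZMod l, g r * (χ r) x
      = ∑ r : ZMod l, ∑ t : ZMod l,
          j (algebraMap K K' (b.repr x t)) * (g r * j ((s ^ r.val) (b t))) := by
        refine Finset.sum_congr rfl fun r _ => ?_
        rw [hx r, Finset.mul_sum]
        refine Finset.sum_congr rfl fun t _ => ?_
        ring
    _ = ∑ t : ZMod l, j (algebraMap K K' (b.repr x t))
          * ∑ r : ZMod l, g r * j ((s ^ r.val) (b t)) := by
        rw [Finset.sum_comm]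
        refine Finset.sum_congr rfl fun t _ => ?_
        rw [Finset.mul_sum]
    _ = 0 := by
        refine Finset.sum_eq_zero fun t _ => ?_
        rw [hgt t, mul_zero]


section Bij

variable [Fact l.Prime]

theorem TFHyp584.mulVec_apply (_h : TFHyp584 s l i j sw) (b : Module.Basis (ZMod l) K K')
    (c : ZMod l → k') (r : ZMod l) :
    (tfMat584 s l j b).mulVec c r = ∑ t, j ((s ^ r.val) (b t)) * c t := rfl

/-- `s_w^r (m(∑ b_t ⊗ a_t)) = (N · i(a))_r`. -/
theorem TFHyp584.sw_pow_map (h : TFHyp584 s l i j sw) (b : Module.Basis (ZMod l) K K')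
    (a : ZMod l → k) (r : ZMod l) :
    (sw ^ r.val) (tfMap584 i j h.hij (∑ t, b t ⊗ₜ[K] a t))
      = (tfMat584 s l j b).mulVec (fun t => i (a t)) r := by
  rw [h.mulVec_apply, map_sum, map_sum]
  refine Finset.sum_congr rfl fun t _ => ?_
  rw [tfMap_tmul584, map_mul, h.sw_pow_j, h.sw_pow_i]

/-- `m` is injective. -/
theorem TFHyp584.map_injective (h : TFHyp584 s l i j sw) (b : Module.Basis (ZMod l) K K') :
    Function.Injective (tfMap584 i j h.hij) := by
  rw [injective_iff_map_eq_zero]
  intro z hz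
  obtain ⟨a, rfl⟩ := exists_repr584 (k := k) b z
  have h0 : (tfMat584 s l j b).mulVec (fun t => i (a t)) = (tfMat584 s l j b).mulVec 0 := by
    funext r
    rw [← h.sw_pow_map b a r, hz, map_zero, Matrix.mulVec_zero]
    rfl
  have h1 := (Matrix.mulVec_injective_iff_isUnit.2 (h.isUnit_mat b)) h0
  have h2 : ∀ t, a t = 0 := fun t =>
    i.injective (by rw [map_zero]; exact congrFun h1 t)
  refine Finset.sum_eq_zero fun t _ => ?_
  rw [h2 t, TensorProduct.tmul_zero]

theorem pow_val_eq_mul584 {M : Type*} [Monoid M] {x : M} (hx : x ^ l = 1) (r : ZMod l) :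
    x ^ r.val = x * x ^ (r - 1).val := by
  have hr : r = (r - 1) + 1 := (sub_add_cancel r 1).symm
  conv_lhs => rw [hr]
  rw [pow_val_add_one584 hx, ← pow_succ, pow_succ']

/-- `m` is surjective. -/
theorem TFHyp584.map_surjective (h : TFHyp584 s l i j sw) (b : Module.Basis (ZMod l) K K') :
    Function.Surjective (tfMap584 i j h.hij) := by
  intro y
  have hinj := Matrix.mulVec_injective_iff_isUnit.2 (h.isUnit_mat b)
  obtain ⟨c, hc⟩ := (Matrix.mulVec_surjective_iff_isUnit.2 (h.isUnit_mat b))
    (fun r : ZMod l => (sw ^ r.val) y)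
  have hc' : ∀ r : ZMod l, ∑ t, j ((s ^ r.val) (b t)) * c t = (sw ^ r.val) y := fun r => by
    rw [← h.mulVec_apply b c r, hc]
  have hfix : (fun t => sw (c t)) = c := by
    apply hinj
    rw [hc]
    funext r
    rw [h.mulVec_apply, pow_val_eq_mul584 h.sw_pow_l r, pow_val_eq_mul584 h.s_pow_l r]
    change ∑ t, j (s ((s ^ (r - 1).val) (b t))) * sw (c t) = sw ((sw ^ (r - 1).val) y)
    rw [← hc' (r - 1), map_sum]
    refine Finset.sum_congr rfl fun t _ => ?_
    rw [map_mul, h.hs]
  choose a ha using fun t => h.cyc.fixed (c t) (congrFun hfix t)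
  refine ⟨∑ t, b t ⊗ₜ[K] a t, ?_⟩
  have h0 := h.sw_pow_map b a 0
  rw [show (fun t => i (a t)) = c from funext ha, hc] at h0
  simp only [ZMod.val_zero, pow_zero] at h0
  exact h0

/-- The isomorphism `K' ⊗_K k ≃ k'`. -/
def TFHyp584.equiv (h : TFHyp584 s l i j sw) (b : Module.Basis (ZMod l) K K') :
    K' ⊗[K] k ≃+* k' :=
  RingEquiv.ofBijective (tfMap584 i j h.hij) ⟨h.map_injective b, h.map_surjective b⟩

theorem TFHyp584.equiv_apply (h : TFHyp584 s l i j sw) (b : Module.Basis (ZMod l) K K')
    (z : K' ⊗[K] k) : h.equiv b z = tfMap584 i j h.hij z := rfl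

theorem TFHyp584.equiv_incl (h : TFHyp584 s l i j sw) (b : Module.Basis (ZMod l) K K')
    (a : k) : h.equiv b (tensorIncl584 K K' k a) = i a := by
  rw [h.equiv_apply]
  change tfMap584 i j h.hij ((1 : K') ⊗ₜ[K] a) = i a
  rw [tfMap_tmul584, map_one, one_mul]

theorem TFHyp584.equiv_aut (h : TFHyp584 s l i j sw) (b : Module.Basis (ZMod l) K K')
    (z : K' ⊗[K] k) : h.equiv b (tensorAut584 s z) = sw (h.equiv b z) := by
  induction z using TensorProduct.induction_on with
  | zero => simp
  | tmul x a =>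
    rw [h.equiv_apply, h.equiv_apply]
    change tfMap584 i j h.hij ((s x) ⊗ₜ[K] a) = sw (tfMap584 i j h.hij (x ⊗ₜ[K] a))
    rw [tfMap_tmul584, tfMap_tmul584, map_mul, h.hs, h.cyc.fix_i]
  | add x y hx hy =>
    rw [map_add, map_add, hx, hy, map_add, map_add]

theorem TFHyp584.symm_incl (h : TFHyp584 s l i j sw) (b : Module.Basis (ZMod l) K K')
    (a : k) : (h.equiv b).symm (i a) = tensorIncl584 K K' k a := by
  rw [RingEquiv.symm_apply_eq, h.equiv_incl]

theorem TFHyp584.symm_aut (h : TFHyp584 s l i j sw) (b : Module.Basis (ZMod l) K K')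
    (y : k') : tensorAut584 s ((h.equiv b).symm y) = (h.equiv b).symm (sw y) := by
  rw [RingEquiv.eq_symm_apply, h.equiv_aut, RingEquiv.apply_symm_apply]

end Bij

/-! ## Transport of the twisted norm -/

section Transport

variable {R S : Type} [CommRing R] [CommRing S]

/-- A ring homomorphism intertwining two automorphisms transports the twisted norm. -/
theorem twNorm_map584 (f : R →+* S) (sR : R ≃+* R) (sS : S ≃+* S)
    (hf : ∀ x : R, f (sR x) = sS (f x)) :
    ∀ (n : ℕ) (δ : GL (Fin 2) R),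
      T6.twNorm sS n (Matrix.GeneralLinearGroup.map f δ)
        = Matrix.GeneralLinearGroup.map f (T6.twNorm sR n δ)
  | 0, _ => (map_one _).symm
  | n + 1, δ => by
      have ih := twNorm_map584 f sR sS hf n δ
      change Matrix.GeneralLinearGroup.map f δ
          * T6.glAut sS (T6.twNorm sS n (Matrix.GeneralLinearGroup.map f δ))
        = Matrix.GeneralLinearGroup.map f (δ * T6.glAut sR (T6.twNorm sR n δ))
      rw [ih, map_mul]
      congr 1
      have hcomp : ((sS : S →+* S).comp f) = f.comp (sR : R →+* R) :=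
        RingHom.ext fun x => (hf x).symm
      change (Matrix.GeneralLinearGroup.map (sS : S →+* S))
          (Matrix.GeneralLinearGroup.map f (T6.twNorm sR n δ))
        = Matrix.GeneralLinearGroup.map f
          (Matrix.GeneralLinearGroup.map (sR : R →+* R) (T6.twNorm sR n δ))
      rw [← MonoidHom.comp_apply, ← Matrix.GeneralLinearGroup.map_comp, hcomp,
        Matrix.GeneralLinearGroup.map_comp, MonoidHom.comp_apply]

end Transport

/-- **The leaf N1 `TensorFieldC584`, PROVED.** -/
theorem tensorFieldC584 : TensorFieldC584 := by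
  intro K K' k k' _ _ _ _ _ _ s l hl hrank hne i j sw hij hs hcyc γ hγ
  have h : TFHyp584 s l i j sw := ⟨hl, hrank, hne, hij, hs, hcyc⟩
  haveI : Fact l.Prime := ⟨hl⟩
  haveI : Module.Finite K K' :=
    Module.finite_of_finrank_pos (by rw [hrank]; exact hl.pos)
  let b : Module.Basis (ZMod l) K K' :=
    (Module.finBasisOfFinrankEq K K' hrank).reindex (ZMod.finEquiv l).toEquiv
  obtain ⟨δw, hδw⟩ := hγ
  let E : k' →+* K' ⊗[K] k := ((h.equiv b).symm : k' →+* K' ⊗[K] k)
  refine ⟨Matrix.GeneralLinearGroup.map E δw, ?_⟩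
  have h1 := twNorm_map584 E sw (tensorAut584 s) (fun y => (h.symm_aut b y).symm) l δw
  rw [h1]
  have h2 := (Matrix.GeneralLinearGroup.map E).map_isConj hδw
  have h3 : Matrix.GeneralLinearGroup.map E (Matrix.GeneralLinearGroup.map i γ)
      = Matrix.GeneralLinearGroup.map (tensorIncl584 K K' k) γ := by
    have hE : E.comp i = tensorIncl584 K K' k := RingHom.ext fun a => h.symm_incl b a
    rw [← MonoidHom.comp_apply, ← Matrix.GeneralLinearGroup.map_comp, hE]
  rw [h3] at h2
  exact h2

end Main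

end Fermat.Agent.LT.T7.H584

end
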