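import Mathlib
import Fermat.Agent.LT.T7.H584.NormLocTop
import Fermat.Agent.LT.T7.H584.TensorField
import Fermat.Agent.LT.T7.H768.SplitOrUnique
import Fermat.Agent.LT.T7.H122.TensorSplit

/-!
# Row LT, tower T7, local norm bridge (helper584): the node `NonNormLocC584` CLOSED on tower T6

OFF-MAIN.  `nonNormLocC584 : T6.NormImageTCC → T6.InstSplitC → NonNormLocC584 K K'`: the three
leaves of the cut `NormLocSpec.lean` are plugged (N1 `tensorFieldC584` helper584, N2
`tensorSplitC122` helper122, N3 `splitOrUniqueC768` helper768; byte-identical copies);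
`T6.NormImageTCC`, `T6.InstSplitC` are closed in tower T6.
-/

set_option autoImplicit false

open IsDedekindDomain NumberField

noncomputable section

namespace Fermat.Agent.LT.T7.H584

variable (K K' : Type) [Field K] [NumberField K] [Field K'] [NumberField K'] [Algebra K K']

/-- The node with N1 and N3 plugged. -/
theorem nonNormLoc_of_split584 (hN : T6.NormImageTCC) (hS : T6.InstSplitC)
    (h2 : TensorSplitC584) : NonNormLocC584 K K' :=
  nonNormLoc_of584 hN hS tensorFieldC584 h2 (H768.splitOrUniqueC768 K K')

/-- **The node `NonNormLocC584`, closed on tower T6.** -/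
theorem nonNormLocC584 (hN : T6.NormImageTCC) (hS : T6.InstSplitC) : NonNormLocC584 K K' :=
  nonNormLoc_of_split584 K K' hN hS H122.tensorSplitC122

end Fermat.Agent.LT.T7.H584

end
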