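import Mathlib
import Fermat.Agent.LT.T6.Spec
import Fermat.Agent.LT.T7.H159.SplitIntL

/-!
# Row LT, tower T7, node C2.7.13 `FactUpC305` (split places), asset (helper584), OFF-MAIN:
# THE CONVOLUTION OF T6 (finite sums over cosets) IS THE CONVOLUTION INTEGRAL

`T6.IsConv U φ ψ χ` / `T6.IsConvProd U l φ f` (the hypothesis `LocHyp305.split` of helper305's
`MatchSpec.lean`) are sums over representatives of cosets `h U`; the split integral identity
(`H159.iterL_eq159`, `T6.SplitInt2C/3C`) speaks of `T6.convInt μ`.  For a left invariant measure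
with `μ(U) = 1`:

* `integral_eq_sum_of_cosets584`: a right `U`-invariant function supported on the finitely many
  cosets `h U`, `h ∈ R` (pairwise distinct) has integral `∑_{h ∈ R} F h`;
* `convInt_eq_of_isConv584`: `T6.IsConv U φ ψ χ → χ g = T6.convInt μ φ ψ g`
  (`φ` right invariant, `ψ` left invariant);
* `convL_eq_of_isConvProd584`: `T6.IsConvProd U l φ f → f = H159.convL159 μ φ (l - 1)`
  (all `φ j` bi-invariant, `1 ≤ l`): the left nested convolution integral of `H159.iterL_eq159`.

Vocabulary: `T6/Spec.lean` (version of record `c1b839bc…`), `T7/H159/SplitIntL.lean` (helper159,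
sha256 `2fe12f7d…`, byte-identical copy).  Any group with a measurable structure.
-/

set_option autoImplicit false
set_option linter.unusedSectionVars false

open MeasureTheory

noncomputable section

namespace Fermat.Agent.LT.T7.H584

open Fermat.Agent.LT

variable {H : Type} [Group H] [MeasurableSpace H] [MeasurableMul H]

/-- `U` is (the predicate of) a measurable subgroup of measure one. -/
structure IsUnitVol584 (μ : Measure H) (U : H → Prop) : Prop where
  one : U 1
  mul : ∀ a b : H, U a → U b → U (a * b)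
  inv : ∀ a : H, U a → U a⁻¹
  meas : MeasurableSet {g : H | U g}
  vol : μ {g : H | U g} = 1

/-- The coset `h U`. -/
def coset584 (U : H → Prop) (h : H) : Set H := {g | ∃ u : H, U u ∧ g = h * u}

omit [MeasurableSpace H] [MeasurableMul H] in
theorem coset_eq_preimage584 (U : H → Prop) (h : H) :
    coset584 U h = (fun g => h⁻¹ * g) ⁻¹' {g | U g} := by
  ext g
  constructor
  · rintro ⟨u, hu, rfl⟩
    change U (h⁻¹ * (h * u))
    rw [inv_mul_cancel_left]
    exact hu
  · intro hg
    exact ⟨h⁻¹ * g, hg, by rw [mul_inv_cancel_left]⟩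

theorem measurableSet_coset584 {μ : Measure H} {U : H → Prop} (hU : IsUnitVol584 μ U) (h : H) :
    MeasurableSet (coset584 U h) := by
  rw [coset_eq_preimage584]
  exact (measurable_const_mul h⁻¹) hU.meas

theorem measure_coset584 {μ : Measure H} [μ.IsMulLeftInvariant] {U : H → Prop}
    (hU : IsUnitVol584 μ U) (h : H) : μ (coset584 U h) = 1 := by
  rw [coset_eq_preimage584, measure_preimage_mul, hU.vol]

/-- A right `U`-invariant function supported on finitely many pairwise distinct cosets. -/
theorem integral_eq_sum_of_cosets584 {μ : Measure H} [μ.IsMulLeftInvariant] {U : H → Prop}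
    (hU : IsUnitVol584 μ U) (F : H → ℂ) (hF : ∀ g u : H, U u → F (g * u) = F g)
    (R : Finset H)
    (hdisj : ∀ h ∈ R, ∀ h' ∈ R, (∃ u : H, U u ∧ h' = h * u) → h = h')
    (hcov : ∀ h : H, F h ≠ 0 → ∃ h' ∈ R, ∃ u : H, U u ∧ h = h' * u) :
    ∫ h, F h ∂μ = ∑ h ∈ R, F h := by
  classical
  have hpt : ∀ g : H, F g = ∑ h ∈ R, (coset584 U h).indicator (fun _ => F h) g := by
    intro g
    by_cases hg : ∃ h ∈ R, g ∈ coset584 U h
    · obtain ⟨h₀, hh₀, u₀, hu₀, rfl⟩ := hg
      rw [Finset.sum_eq_single h₀]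
      · rw [Set.indicator_of_mem (show h₀ * u₀ ∈ coset584 U h₀ from ⟨u₀, hu₀, rfl⟩)]
        exact hF h₀ u₀ hu₀
      · intro h hh hne
        rw [Set.indicator_of_notMem]
        rintro ⟨u, hu, he⟩
        apply hne
        refine (hdisj h₀ hh₀ h hh ⟨u₀ * u⁻¹, hU.mul _ _ hu₀ (hU.inv _ hu), ?_⟩).symm
        rw [← mul_assoc, he, mul_inv_cancel_right]
      · intro hn
        exact absurd hh₀ hn
    · have h0 : F g = 0 := by
        by_contra hne
        obtain ⟨h', hh', u, hu, he⟩ := hcov g hne
        exact hg ⟨h', hh', u, hu, he⟩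
      rw [h0]
      symm
      refine Finset.sum_eq_zero fun h hh => ?_
      rw [Set.indicator_of_notMem]
      intro hmem
      exact hg ⟨h, hh, hmem⟩
  have hint : ∀ h ∈ R, Integrable ((coset584 U h).indicator (fun _ => F h)) μ := by
    intro h _
    refine (integrable_indicator_iff (measurableSet_coset584 hU h)).2 ?_
    refine integrableOn_const ?_
    rw [measure_coset584 hU h]
    exact ENNReal.one_ne_top
  calc ∫ h, F h ∂μ
      = ∫ g, ∑ h ∈ R, (coset584 U h).indicator (fun _ => F h) g ∂μ :=
        integral_congr_ae (ae_of_all _ hpt)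
    _ = ∑ h ∈ R, ∫ g, (coset584 U h).indicator (fun _ => F h) g ∂μ :=
        integral_finset_sum R hint
    _ = ∑ h ∈ R, F h := by
        refine Finset.sum_congr rfl fun h _ => ?_
        rw [integral_indicator_const _ (measurableSet_coset584 hU h)]
        simp [Measure.real, measure_coset584 hU h]

/-- **The convolution of T6 is the convolution integral.** -/
theorem convInt_eq_of_isConv584 {μ : Measure H} [μ.IsMulLeftInvariant] {U : H → Prop}
    (hU : IsUnitVol584 μ U) (φ ψ χ : H → ℂ)
    (hφ : ∀ g u : H, U u → φ (g * u) = φ g) (hψ : ∀ g u : H, U u → ψ (u * g) = ψ g)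
    (h : T6.IsConv U φ ψ χ) (g : H) : χ g = T6.convInt μ φ ψ g := by
  obtain ⟨R, hdisj, hcov, hsum⟩ := h g
  rw [hsum]
  symm
  refine integral_eq_sum_of_cosets584 hU (fun h => φ h * ψ (h⁻¹ * g)) ?_ R hdisj hcov
  intro h u hu
  rw [hφ h u hu, mul_inv_rev, mul_assoc, hψ _ _ (hU.inv u hu)]

omit [MeasurableMul H] in
/-- The convolution integral is right invariant if the second factor is. -/
theorem convInt_right_inv584 (μ : Measure H) (U : H → Prop) (φ ψ : H → ℂ)
    (hψ : ∀ g u : H, U u → ψ (g * u) = ψ g) (g u : H) (hu : U u) :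
    T6.convInt μ φ ψ (g * u) = T6.convInt μ φ ψ g := by
  change ∫ h, φ h * ψ (h⁻¹ * (g * u)) ∂μ = ∫ h, φ h * ψ (h⁻¹ * g) ∂μ
  refine integral_congr_ae (ae_of_all _ fun h => ?_)
  change φ h * ψ (h⁻¹ * (g * u)) = φ h * ψ (h⁻¹ * g)
  rw [← mul_assoc, hψ _ u hu]

omit [MeasurableSpace H] [MeasurableMul H] in
theorem biInv_right584 {U : H → Prop} (h1 : U 1) {φ : H → ℂ} (hφ : T6.IsBiInv U φ)
    (g u : H) (hu : U u) : φ (g * u) = φ g := by
  have := hφ 1 u g h1 hu
  rwa [one_mul] at this

omit [MeasurableSpace H] [MeasurableMul H] in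
theorem biInv_left584 {U : H → Prop} (h1 : U 1) {φ : H → ℂ} (hφ : T6.IsBiInv U φ)
    (g u : H) (hu : U u) : φ (u * g) = φ g := by
  have := hφ u 1 g hu h1
  rwa [mul_one] at this

/-- The left nested convolution integrals are right invariant. -/
theorem convL_right_inv584 (μ : Measure H) {U : H → Prop} (h1 : U 1) (φ : ℕ → H → ℂ)
    (hφ : ∀ j : ℕ, T6.IsBiInv U (φ j)) :
    ∀ (n : ℕ) (g u : H), U u → H159.convL159 μ φ n (g * u) = H159.convL159 μ φ n g
  | 0, g, u, hu => biInv_right584 h1 (hφ 0) g u hu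
  | n + 1, g, u, hu =>
      convInt_right_inv584 μ U (H159.convL159 μ φ n) (φ (n + 1))
        (biInv_right584 h1 (hφ (n + 1))) g u hu

/-- **The iterated convolution of T6 is the left nested convolution integral.** -/
theorem convL_eq_of_isConvProd584 {μ : Measure H} [μ.IsMulLeftInvariant] {U : H → Prop}
    (hU : IsUnitVol584 μ U) (l : ℕ) (φ : ℕ → H → ℂ) (f : H → ℂ)
    (hφ : ∀ j : ℕ, T6.IsBiInv U (φ j)) (h : T6.IsConvProd U l φ f) :
    f = H159.convL159 μ φ (l - 1) := by
  obtain ⟨χ, h0, hstep, hf⟩ := h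
  have key : ∀ m : ℕ, m < l ∨ m = 0 → χ m = H159.convL159 μ φ m := by
    intro m
    induction m with
    | zero => intro _; exact h0
    | succ m ih =>
      intro hm
      have hm' : m + 1 < l := by
        rcases hm with hm | hm
        · exact hm
        · exact absurd hm (Nat.succ_ne_zero m)
      have ihm := ih (Or.inl (Nat.lt_of_succ_lt hm'))
      funext g
      have hc := convInt_eq_of_isConv584 hU (χ m) (φ (m + 1)) (χ (m + 1))
        (by rw [ihm]; exact convL_right_inv584 μ hU.one φ hφ m)
        (biInv_left584 hU.one (hφ (m + 1))) (hstep m hm') g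
      rw [hc, ihm]
      rfl
  rw [hf]
  apply key
  rcases Nat.eq_zero_or_pos l with hl | hl
  · right; rw [hl]
  · left; exact Nat.sub_lt hl one_pos

end Fermat.Agent.LT.T7.H584

end
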